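/-
Brick E0.3 (helper28, program TW, WP4 step (2)): Artin's induction theorem for the trivial
character, in fixed-point form: a positive multiple of the constant function `1` on a finite
group `G` is an integral combination of the fixed-point counting functions of the coset spaces
`G ⧸ C`, `C` cyclic.  Proof by triangularity (induction on the order of elements); no characters,
no Moebius function.  Mathlib-only.
-/
import Mathlib

set_option linter.unusedSectionVars false

namespace Fermat.Agent.TW.EUL.ArtinFix28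

open scoped Classical

variable {G : Type*} [Group G]

/-- Number of fixed points of `g` on `G ⧸ H`. -/
noncomputable def fixCount (H : Subgroup G) (g : G) : ℕ :=
  Nat.card (MulAction.fixedBy (G ⧸ H) g)

/-- `g` is conjugate to an element of the cyclic group generated by `g'`. -/
def Subconj (g g' : G) : Prop := ∃ x : G, x * g * x⁻¹ ∈ Subgroup.zpowers g'

/-- Mutual subconjugacy: the cyclic groups generated are conjugate. -/
def Sim (g g' : G) : Prop := Subconj g g' ∧ Subconj g' g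

lemma Subconj.refl (g : G) : Subconj g g := ⟨1, by simp⟩

lemma Subconj.trans {g g' g'' : G} (h : Subconj g g') (h' : Subconj g' g'') : Subconj g g'' := by
  obtain ⟨x, hx⟩ := h
  obtain ⟨y, hy⟩ := h'
  obtain ⟨n, hn⟩ := Subgroup.mem_zpowers_iff.1 hx
  refine ⟨y * x, ?_⟩
  have : y * x * g * (y * x)⁻¹ = (y * g' * y⁻¹) ^ n := by
    rw [conj_zpow, hn]; group
  rw [this]
  exact Subgroup.zpow_mem _ hy n

lemma Sim.refl (g : G) : Sim g g := ⟨Subconj.refl g, Subconj.refl g⟩
lemma Sim.symm {g g' : G} (h : Sim g g') : Sim g' g := ⟨h.2, h.1⟩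
lemma Sim.trans {g g' g'' : G} (h : Sim g g') (h' : Sim g' g'') : Sim g g'' :=
  ⟨h.1.trans h'.1, h'.2.trans h.2⟩

variable [Finite G]

lemma fixCount_conj (H : Subgroup G) (x g : G) : fixCount H (x * g * x⁻¹) = fixCount H g := by
  unfold fixCount
  refine (Nat.card_congr ?_).symm
  refine ⟨fun y => ⟨x • y.1, ?_⟩, fun y => ⟨x⁻¹ • y.1, ?_⟩, ?_, ?_⟩
  · have hy : g • y.1 = y.1 := y.2
    show (x * g * x⁻¹) • x • y.1 = x • y.1
    rw [mul_smul, mul_smul, inv_smul_smul, hy]
  · have hy : (x * g * x⁻¹) • y.1 = y.1 := y.2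
    show g • x⁻¹ • y.1 = x⁻¹ • y.1
    rw [eq_inv_smul_iff, ← mul_smul, ← mul_smul]
    exact hy
  · intro y; ext; simp
  · intro y; ext; simp

lemma fixCount_le_of_mem_zpowers (H : Subgroup G) {g g' : G} (h : g' ∈ Subgroup.zpowers g) :
    fixCount H g ≤ fixCount H g' := by
  obtain ⟨n, rfl⟩ := Subgroup.mem_zpowers_iff.1 h
  unfold fixCount
  exact Nat.card_le_card_of_injective
    (Set.inclusion (MulAction.fixedBy_subset_fixedBy_zpow (G ⧸ H) g n))
    (Set.inclusion_injective _)

lemma Subconj.fixCount_le (H : Subgroup G) {g g' : G} (h : Subconj g g') :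
    fixCount H g' ≤ fixCount H g := by
  obtain ⟨x, hx⟩ := h
  rw [← fixCount_conj H x g]
  exact fixCount_le_of_mem_zpowers H hx

lemma Sim.fixCount_eq (H : Subgroup G) {g g' : G} (h : Sim g g') :
    fixCount H g = fixCount H g' :=
  le_antisymm (h.2.fixCount_le H) (h.1.fixCount_le H)

/-- A fixed point of `g` on `G ⧸ zpowers g₀` makes `g` subconjugate to `g₀`. -/
lemma subconj_of_fixCount_ne_zero {g g₀ : G} (h : fixCount (Subgroup.zpowers g₀) g ≠ 0) :
    Subconj g g₀ := by
  unfold fixCount at h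
  have hne : Nonempty (MulAction.fixedBy (G ⧸ Subgroup.zpowers g₀) g) := by
    by_contra hcon
    rw [not_nonempty_iff] at hcon
    exact h Nat.card_of_isEmpty
  obtain ⟨⟨y, hy⟩⟩ := hne
  obtain ⟨x, rfl⟩ := QuotientGroup.mk_surjective y
  have h1 : ((g * x : G) : G ⧸ Subgroup.zpowers g₀) = (x : G ⧸ Subgroup.zpowers g₀) := hy
  rw [QuotientGroup.eq] at h1
  refine ⟨x⁻¹, ?_⟩
  have h2 := Subgroup.inv_mem _ h1
  have : ((g * x)⁻¹ * x)⁻¹ = x⁻¹ * g * x⁻¹⁻¹ := by group
  rwa [this] at h2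

lemma fixCount_self_ne_zero (g₀ : G) : fixCount (Subgroup.zpowers g₀) g₀ ≠ 0 := by
  unfold fixCount
  have : Nonempty (MulAction.fixedBy (G ⧸ Subgroup.zpowers g₀) g₀) := by
    refine ⟨⟨((1 : G) : G ⧸ Subgroup.zpowers g₀), ?_⟩⟩
    show ((g₀ * 1 : G) : G ⧸ Subgroup.zpowers g₀) = ((1 : G) : G ⧸ Subgroup.zpowers g₀)
    rw [QuotientGroup.eq]
    simp
  exact Nat.card_pos.ne'

/-- Subconjugate elements are either equivalent or of strictly smaller order. -/
lemma Subconj.sim_or_lt {g g₀ : G} (h : Subconj g g₀) : Sim g g₀ ∨ orderOf g < orderOf g₀ := by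
  obtain ⟨x, hx⟩ := h
  have hord : orderOf (x * g * x⁻¹) = orderOf g := (MulAut.conj x).orderOf_eq g
  have hdvd : orderOf (x * g * x⁻¹) ∣ orderOf g₀ := orderOf_dvd_of_mem_zpowers hx
  have hpos : 0 < orderOf g₀ := orderOf_pos g₀
  rcases (Nat.le_of_dvd hpos hdvd).lt_or_eq with hlt | heq
  · right; omega
  · left
    refine ⟨⟨x, hx⟩, ?_⟩
    have hle : Subgroup.zpowers (x * g * x⁻¹) ≤ Subgroup.zpowers g₀ :=
      (Subgroup.zpowers_le).2 hx
    have hcard : Nat.card (Subgroup.zpowers g₀) ≤ Nat.card (Subgroup.zpowers (x * g * x⁻¹)) := by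
      rw [Nat.card_zpowers, Nat.card_zpowers, heq]
    have heq' : Subgroup.zpowers (x * g * x⁻¹) = Subgroup.zpowers g₀ :=
      Subgroup.eq_of_le_of_card_ge hle hcard
    have hmem : g₀ ∈ Subgroup.zpowers (x * g * x⁻¹) := by
      rw [heq']; exact Subgroup.mem_zpowers g₀
    obtain ⟨n, hn⟩ := Subgroup.mem_zpowers_iff.1 hmem
    refine ⟨x⁻¹, ?_⟩
    rw [← hn, conj_zpow]
    have : x⁻¹ * (x * g ^ n * x⁻¹) * x⁻¹⁻¹ = g ^ n := by group
    rw [this]
    exact Subgroup.zpow_mem _ (Subgroup.mem_zpowers g) n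

variable [Fintype G]

/-- Class functions for the relation `Sim`. -/
def ClassFun (f : G → ℚ) : Prop := ∀ g g', Sim g g' → f g = f g'

/-- Indicator of the `Sim`-class of `g₀`. -/
noncomputable def ind (g₀ : G) : G → ℚ := fun g => if Sim g g₀ then 1 else 0

/-- The class of `g`. -/
noncomputable def cls (g : G) : Finset G := Finset.univ.filter fun g' => Sim g' g

lemma mem_cls {g g' : G} : g' ∈ cls g ↔ Sim g' g := by simp [cls]

lemma cls_eq_of_sim {g g' : G} (h : Sim g g') : cls g = cls g' := by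
  ext x
  rw [mem_cls, mem_cls]
  exact ⟨fun hx => hx.trans h, fun hx => hx.trans h.symm⟩

lemma card_cls_pos (g : G) : 0 < (cls g).card :=
  Finset.card_pos.2 ⟨g, mem_cls.2 (Sim.refl g)⟩

/-- The fixed-point counting function of `G ⧸ zpowers g₀`, rational valued. -/
noncomputable def perm (g₀ : G) : G → ℚ := fun g => (fixCount (Subgroup.zpowers g₀) g : ℚ)

lemma classFun_perm (g₀ : G) : ClassFun (perm g₀) := fun g g' h => by
  unfold perm; rw [h.fixCount_eq]

lemma classFun_ind (g₀ : G) : ClassFun (ind g₀) := fun g g' h => by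
  unfold ind
  by_cases h1 : Sim g g₀
  · rw [if_pos h1, if_pos (h.symm.trans h1)]
  · rw [if_neg h1, if_neg (fun h2 => h1 (h.trans h2))]

/-- Decomposition of a class function into class indicators. -/
lemma classFun_decomp (f : G → ℚ) (hf : ClassFun f) :
    f = ∑ g₁ : G, (f g₁ / (cls g₁).card) • ind g₁ := by
  funext h
  rw [Finset.sum_apply]
  simp only [Pi.smul_apply, ind, smul_eq_mul, mul_ite, mul_one, mul_zero]
  rw [← Finset.sum_filter]
  have hfilter : (Finset.univ.filter fun g₁ : G => Sim h g₁) = cls h := by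
    ext x; rw [mem_cls]; simp only [Finset.mem_filter, Finset.mem_univ, true_and]
    exact ⟨Sim.symm, Sim.symm⟩
  rw [hfilter]
  have : ∀ g₁ ∈ cls h, f g₁ / ((cls g₁).card : ℚ) = f h / ((cls h).card : ℚ) := by
    intro g₁ hg₁
    rw [hf g₁ h (mem_cls.1 hg₁), cls_eq_of_sim (mem_cls.1 hg₁)]
  rw [Finset.sum_congr rfl this, Finset.sum_const, nsmul_eq_mul]
  have hpos : ((cls h).card : ℚ) ≠ 0 := by exact_mod_cast (card_cls_pos h).ne'
  field_simp

/-- The span of the cyclic permutation characters. -/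
noncomputable def P : Submodule ℚ (G → ℚ) := Submodule.span ℚ (Set.range (perm (G := G)))

lemma ind_mem_P (g₀ : G) : ind g₀ ∈ P (G := G) := by
  induction' hn : orderOf g₀ using Nat.strong_induction_on with n ih generalizing g₀
  set c : ℚ := perm g₀ g₀ with hc
  have hc0 : c ≠ 0 := by
    rw [hc]; unfold perm
    exact_mod_cast fixCount_self_ne_zero g₀
  set f' : G → ℚ := perm g₀ - c • ind g₀ with hf'
  have hf'class : ClassFun f' := fun g g' h => by
    simp only [hf', Pi.sub_apply, Pi.smul_apply, classFun_perm g₀ g g' h, classFun_ind g₀ g g' h]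
  have hf'supp : ∀ g, f' g ≠ 0 → orderOf g < n := by
    intro g hg
    by_cases hsim : Sim g g₀
    · exfalso
      apply hg
      simp only [hf', Pi.sub_apply, Pi.smul_apply, ind, if_pos hsim, smul_eq_mul, mul_one, hc]
      rw [classFun_perm g₀ g g₀ hsim, sub_self]
    · have hperm : perm g₀ g ≠ 0 := by
        intro h0
        apply hg
        simp only [hf', Pi.sub_apply, Pi.smul_apply, ind, if_neg hsim, h0, smul_zero, sub_self]
      have hfix : fixCount (Subgroup.zpowers g₀) g ≠ 0 := by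
        intro h0; apply hperm; unfold perm; rw [h0]; simp
      rcases (subconj_of_fixCount_ne_zero hfix).sim_or_lt with h1 | h1
      · exact absurd h1 hsim
      · omega
  have hf'mem : f' ∈ P (G := G) := by
    rw [classFun_decomp f' hf'class]
    apply Submodule.sum_mem
    intro g₁ _
    by_cases h0 : f' g₁ = 0
    · rw [h0, zero_div, zero_smul]; exact Submodule.zero_mem _
    · exact Submodule.smul_mem _ _ (ih (orderOf g₁) (hf'supp g₁ h0) g₁ rfl)
  have hperm : perm g₀ ∈ P (G := G) := Submodule.subset_span ⟨g₀, rfl⟩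
  have h1 : c • ind g₀ ∈ P (G := G) := by
    have : c • ind g₀ = perm g₀ - f' := by rw [hf']; abel
    rw [this]
    exact Submodule.sub_mem _ hperm hf'mem
  have h2 := Submodule.smul_mem (P (G := G)) c⁻¹ h1
  rwa [smul_smul, inv_mul_cancel₀ hc0, one_smul] at h2

lemma one_mem_P : (fun _ => 1 : G → ℚ) ∈ P (G := G) := by
  rw [classFun_decomp (fun _ => 1 : G → ℚ) (fun _ _ _ => rfl)]
  apply Submodule.sum_mem
  intro g₁ _
  exact Submodule.smul_mem _ _ (ind_mem_P g₁)

/-- Rational form of Artin's theorem for the trivial character. -/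
lemma exists_rat_coeff : ∃ c : G → ℚ, ∀ g : G,
    ∑ g₀ : G, c g₀ * (fixCount (Subgroup.zpowers g₀) g : ℚ) = 1 := by
  have h := one_mem_P (G := G)
  rw [P, Submodule.mem_span_range_iff_exists_fun] at h
  obtain ⟨c, hc⟩ := h
  refine ⟨c, fun g => ?_⟩
  have := congrFun hc g
  simpa [perm, Finset.sum_apply] using this

/-- Integral form, with an integer coefficient function. -/
lemma exists_int_coeff : ∃ (n : ℕ) (z : G → ℤ), 0 < n ∧ ∀ g : G,
    ∑ g₀ : G, z g₀ * (fixCount (Subgroup.zpowers g₀) g : ℤ) = n := by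
  obtain ⟨c, hc⟩ := exists_rat_coeff (G := G)
  set N : ℕ := ∏ g₀ : G, (c g₀).den with hN
  have hNpos : 0 < N := Finset.prod_pos fun g₀ _ => (c g₀).den_pos
  have hdvd : ∀ g₀ : G, (c g₀).den ∣ N := fun g₀ =>
    Finset.dvd_prod_of_mem (fun g₀ => (c g₀).den) (Finset.mem_univ g₀)
  let z : G → ℤ := fun g₀ => (c g₀).num * ((N / (c g₀).den : ℕ) : ℤ)
  have hz : ∀ g₀ : G, ((z g₀ : ℤ) : ℚ) = (N : ℚ) * c g₀ := by
    intro g₀
    obtain ⟨m, hm⟩ := hdvd g₀
    have hden : ((c g₀).den : ℚ) ≠ 0 := by exact_mod_cast (c g₀).den_pos.ne'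
    have h1 : N / (c g₀).den = m := by
      rw [hm]; exact Nat.mul_div_cancel_left m (c g₀).den_pos
    simp only [z, h1]
    rw [Int.cast_mul, Int.cast_natCast, hm, Nat.cast_mul]
    have h3 : ((c g₀).num : ℚ) = c g₀ * ((c g₀).den : ℚ) := (Rat.mul_den_eq_num (c g₀)).symm
    rw [h3]; ring
  refine ⟨N, z, hNpos, fun g => ?_⟩
  have h2 : ((∑ g₀ : G, z g₀ * (fixCount (Subgroup.zpowers g₀) g : ℤ) : ℤ) : ℚ) = (N : ℚ) := by
    push_cast
    simp_rw [hz, mul_assoc]
    rw [← Finset.mul_sum, hc g, mul_one]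
  exact_mod_cast h2

/-- **Artin's induction theorem for the trivial character, fixed-point form.** There are a
positive integer `n` and multiplicities `zm, zp` such that for every `g : G`,
`n + ∑ zm(g₀) #Fix_{G/⟨g₀⟩}(g) = ∑ zp(g₀) #Fix_{G/⟨g₀⟩}(g)`. -/
theorem exists_nat_coeff : ∃ (n : ℕ) (zm zp : G → ℕ), 0 < n ∧ ∀ g : G,
    n + ∑ g₀ : G, zm g₀ * fixCount (Subgroup.zpowers g₀) g =
      ∑ g₀ : G, zp g₀ * fixCount (Subgroup.zpowers g₀) g := by
  obtain ⟨n, z, hn, hz⟩ := exists_int_coeff (G := G)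
  refine ⟨n, fun g₀ => (-z g₀).toNat, fun g₀ => (z g₀).toNat, hn, fun g => ?_⟩
  have h := hz g
  zify
  rw [← h, ← Finset.sum_add_distrib]
  apply Finset.sum_congr rfl
  intro g₀ _
  rw [← add_mul]
  congr 1
  have := Int.toNat_sub_toNat_neg (z g₀)
  omega

end Fermat.Agent.TW.EUL.ArtinFix28
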