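/-
Brick E0.1a (helper28, program TW, WP4 step (2)): characteristic polynomial and trace of an
endomorphism preserving a submodule: `charpoly e = charpoly (e|W) * charpoly (e on V/W)` and
`trace e = trace (e|W) + trace (e on V/W)`.  Mathlib-only.
-/
import Mathlib

set_option linter.unusedSectionVars false

namespace Fermat.Agent.TW.EUL.BlockCharpoly28

open Module

section

variable {R V : Type*} [CommRing R] [AddCommGroup V]
    [Module R V] [Module.Finite R V]
    (W : Submodule R V) [Module.Free R W] [Module.Finite R W] [Module.Free R (V ⧸ W)]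

open Module.Basis in
/-- Matrix of an endomorphism preserving `W` in a basis adapted to `W` is block triangular. -/
theorem toMatrix_sumQuot_eq_fromBlocks (e : V →ₗ[R] V) (he : W ≤ W.comap e) :
    LinearMap.toMatrix
        (sumQuot (Module.Free.chooseBasis R W) (Module.Free.chooseBasis R (V ⧸ W)))
        (sumQuot (Module.Free.chooseBasis R W) (Module.Free.chooseBasis R (V ⧸ W))) e =
      Matrix.fromBlocks
        (LinearMap.toMatrix (Module.Free.chooseBasis R W) (Module.Free.chooseBasis R W)
          (e.restrict he))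
        (Matrix.of fun i l ↦
          ((sumQuot (Module.Free.chooseBasis R W) (Module.Free.chooseBasis R (V ⧸ W))).repr
            (e ((sumQuot (Module.Free.chooseBasis R W) (Module.Free.chooseBasis R (V ⧸ W)))
              (Sum.inr l)))) (Sum.inl i))
        0
        (LinearMap.toMatrix (Module.Free.chooseBasis R (V ⧸ W))
          (Module.Free.chooseBasis R (V ⧸ W)) (W.mapQ W e he)) := by
  set bW := Module.Free.chooseBasis R W
  set bQ := Module.Free.chooseBasis R (V ⧸ W)
  ext u v
  cases u with
  | inl i =>
    cases v with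
    | inl k =>
      simp only [sumQuot_inl, Matrix.fromBlocks_apply₁₁, LinearMap.toMatrix_apply]
      apply sumQuot_repr_inl_of_mem
    | inr l => simp [LinearMap.toMatrix_apply, Matrix.fromBlocks_apply₁₂]
  | inr j =>
    cases v with
    | inl k =>
      suffices W.mkQ (e (bW k)) = 0 by simp [LinearMap.toMatrix_apply, this]
      rw [← LinearMap.mem_ker, Submodule.ker_mkQ]
      exact he (Submodule.coe_mem (bW k))
    | inr l =>
      simp only [LinearMap.toMatrix_apply, sumQuot_repr_inr,
        Matrix.fromBlocks_apply₂₂]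
      rw [← sumQuot_inr bW bQ l, W.mapQ_apply]
      simp

theorem charpoly_eq_restrict_mul_mapQ [Module.Free R V] (e : V →ₗ[R] V) (he : W ≤ W.comap e) :
    e.charpoly = (e.restrict he).charpoly * (W.mapQ W e he).charpoly := by
  classical
  have h := toMatrix_sumQuot_eq_fromBlocks W e he
  rw [← LinearMap.charpoly_toMatrix e
      (Module.Basis.sumQuot (Module.Free.chooseBasis R W) (Module.Free.chooseBasis R (V ⧸ W))),
    h, Matrix.charpoly_fromBlocks_zero₂₁,
    LinearMap.charpoly_toMatrix, LinearMap.charpoly_toMatrix]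

theorem trace_fromBlocks' {m n : Type*} [Fintype m] [Fintype n] (A : Matrix m m R)
    (B : Matrix m n R) (C : Matrix n m R) (D : Matrix n n R) :
    (Matrix.fromBlocks A B C D).trace = A.trace + D.trace := by
  simp [Matrix.trace, Fintype.sum_sum_type]

theorem trace_eq_restrict_add_mapQ (e : V →ₗ[R] V) (he : W ≤ W.comap e) :
    LinearMap.trace R V e =
      LinearMap.trace R W (e.restrict he) + LinearMap.trace R (V ⧸ W) (W.mapQ W e he) := by
  classical
  have h := toMatrix_sumQuot_eq_fromBlocks W e he
  rw [LinearMap.trace_eq_matrix_trace R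
      (Module.Basis.sumQuot (Module.Free.chooseBasis R W) (Module.Free.chooseBasis R (V ⧸ W))) e,
    h, trace_fromBlocks',
    LinearMap.trace_eq_matrix_trace R (Module.Free.chooseBasis R W),
    LinearMap.trace_eq_matrix_trace R (Module.Free.chooseBasis R (V ⧸ W))]

end

section Exact

variable {K V' V V'' : Type*} [Field K] [AddCommGroup V'] [AddCommGroup V] [AddCommGroup V'']
  [Module K V'] [Module K V] [Module K V''] [Module.Finite K V'] [Module.Finite K V]
  [Module.Finite K V'']

/-- The kernel of `q` identified with `V'` along an exact pair. -/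
noncomputable def kerEquivOfExact (i : V' →ₗ[K] V) (q : V →ₗ[K] V'')
    (hi : Function.Injective i) (hex : Function.Exact i q) : V' ≃ₗ[K] LinearMap.ker q :=
  LinearEquiv.ofBijective
    (i.codRestrict (LinearMap.ker q) (fun v => LinearMap.mem_ker.2 (hex.apply_apply_eq_zero v)))
    ⟨fun x y h => hi (by simpa using congrArg Subtype.val h),
     fun w => by
      obtain ⟨v, hv⟩ := (hex w.1).1 (LinearMap.mem_ker.1 w.2)
      exact ⟨v, Subtype.ext hv⟩⟩

@[simp] lemma kerEquivOfExact_apply (i : V' →ₗ[K] V) (q : V →ₗ[K] V'')
    (hi : Function.Injective i) (hex : Function.Exact i q) (v : V') :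
    ((kerEquivOfExact i q hi hex v : LinearMap.ker q) : V) = i v := rfl

theorem finrank_of_exact (i : V' →ₗ[K] V) (q : V →ₗ[K] V'')
    (hi : Function.Injective i) (hq : Function.Surjective q) (hex : Function.Exact i q) :
    finrank K V = finrank K V' + finrank K V'' := by
  have h1 := LinearMap.finrank_range_add_finrank_ker q
  rw [LinearMap.range_eq_top.2 hq, finrank_top] at h1
  rw [(kerEquivOfExact i q hi hex).finrank_eq]
  omega

theorem charpoly_of_exact (i : V' →ₗ[K] V) (q : V →ₗ[K] V'')
    (hi : Function.Injective i) (hq : Function.Surjective q) (hex : Function.Exact i q)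
    (e' : V' →ₗ[K] V') (e : V →ₗ[K] V) (e'' : V'' →ₗ[K] V'')
    (h1 : ∀ v, i (e' v) = e (i v)) (h2 : ∀ v, q (e v) = e'' (q v)) :
    e.charpoly = e'.charpoly * e''.charpoly := by
  have he : LinearMap.ker q ≤ (LinearMap.ker q).comap e := by
    intro w hw
    rw [Submodule.mem_comap, LinearMap.mem_ker, h2, LinearMap.mem_ker.1 hw, map_zero]
  rw [charpoly_eq_restrict_mul_mapQ (LinearMap.ker q) e he]
  congr 1
  · rw [← LinearEquiv.charpoly_conj (kerEquivOfExact i q hi hex) e']
    congr 1
    ext w
    obtain ⟨v, rfl⟩ := (kerEquivOfExact i q hi hex).surjective w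
    simp [LinearEquiv.conj_apply, h1]
  · rw [← LinearEquiv.charpoly_conj (LinearMap.quotKerEquivOfSurjective q hq).symm e'']
    congr 1
    apply LinearMap.ext
    intro w
    obtain ⟨v, rfl⟩ := Submodule.mkQ_surjective _ w
    apply (LinearMap.quotKerEquivOfSurjective q hq).injective
    simp [LinearEquiv.conj_apply, h2]

theorem trace_of_exact (i : V' →ₗ[K] V) (q : V →ₗ[K] V'')
    (hi : Function.Injective i) (hq : Function.Surjective q) (hex : Function.Exact i q)
    (e' : V' →ₗ[K] V') (e : V →ₗ[K] V) (e'' : V'' →ₗ[K] V'')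
    (h1 : ∀ v, i (e' v) = e (i v)) (h2 : ∀ v, q (e v) = e'' (q v)) :
    LinearMap.trace K V e = LinearMap.trace K V' e' + LinearMap.trace K V'' e'' := by
  have he : LinearMap.ker q ≤ (LinearMap.ker q).comap e := by
    intro w hw
    rw [Submodule.mem_comap, LinearMap.mem_ker, h2, LinearMap.mem_ker.1 hw, map_zero]
  rw [trace_eq_restrict_add_mapQ (LinearMap.ker q) e he]
  congr 1
  · rw [← LinearMap.trace_conj' e' (kerEquivOfExact i q hi hex)]
    congr 1
    ext w
    obtain ⟨v, rfl⟩ := (kerEquivOfExact i q hi hex).surjective w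
    simp [LinearEquiv.conj_apply, h1]
  · rw [← LinearMap.trace_conj' e'' (LinearMap.quotKerEquivOfSurjective q hq).symm]
    congr 1
    apply LinearMap.ext
    intro w
    obtain ⟨v, rfl⟩ := Submodule.mkQ_surjective _ w
    apply (LinearMap.quotKerEquivOfSurjective q hq).injective
    simp [LinearEquiv.conj_apply, h2]

end Exact

end Fermat.Agent.TW.EUL.BlockCharpoly28
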