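/-
Brick E0.1b (helper28, program TW, WP4 step (2)): bundled finite-dimensional modules over a
`k`-algebra `A`, additive invariants, composition lists.  Mathlib-only.
-/
import Mathlib
import Fermat.Agent.TW.EUL.BlockCharpoly28

namespace Fermat.Agent.TW.EUL.FDMod28

open Module Function

universe u uk uA

/-- A bundled `A`-module, finite-dimensional over the field `k`. -/
structure FDMod (k : Type uk) (A : Type uA) [Field k] [Ring A] [Algebra k A] where
  carrier : Type u
  [instACG : AddCommGroup carrier]
  [instModK : Module k carrier]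
  [instModA : Module A carrier]
  [instTower : IsScalarTower k A carrier]
  [instFin : Module.Finite k carrier]

namespace FDMod

variable {k : Type uk} {A : Type uA} [Field k] [Ring A] [Algebra k A]

instance : CoeSort (FDMod.{u} k A) (Type u) := ⟨FDMod.carrier⟩

attribute [instance] instACG instModK instModA instTower instFin

/-- Bundle a module. -/
abbrev of (k : Type uk) (A : Type uA) [Field k] [Ring A] [Algebra k A]
    (W : Type u) [AddCommGroup W] [Module k W] [Module A W] [IsScalarTower k A W]
    [Module.Finite k W] : FDMod.{u} k A := ⟨W⟩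

instance finite_sub (W : Type u) [AddCommGroup W] [Module k W] [Module A W]
    [IsScalarTower k A W] [Module.Finite k W] (N : Submodule A W) : Module.Finite k N :=
  Module.Finite.of_injective (N.subtype.restrictScalars k) Subtype.val_injective

instance finite_quot (W : Type u) [AddCommGroup W] [Module k W] [Module A W]
    [IsScalarTower k A W] [Module.Finite k W] (N : Submodule A W) : Module.Finite k (W ⧸ N) :=
  Module.Finite.of_surjective (N.mkQ.restrictScalars k) (Submodule.mkQ_surjective N)

/-- The submodule as a bundled module. -/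
abbrev sub (W : FDMod.{u} k A) (N : Submodule A W) : FDMod.{u} k A := of k A N

/-- The quotient as a bundled module. -/
abbrev quot (W : FDMod.{u} k A) (N : Submodule A W) : FDMod.{u} k A := of k A (W ⧸ N)

/-- The zero module. -/
abbrev zero (k : Type uk) (A : Type uA) [Field k] [Ring A] [Algebra k A] : FDMod.{u} k A :=
  of k A PUnit.{u+1}

/-- The action of `a : A` as a `k`-linear endomorphism. -/
noncomputable abbrev act (W : FDMod.{u} k A) (a : A) : W →ₗ[k] W := Algebra.lsmul k k W a

@[simp] lemma act_apply (W : FDMod.{u} k A) (a : A) (w : W) : W.act a w = a • w := rfl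

lemma act_mul (W : FDMod.{u} k A) (a b : A) : W.act (a * b) = W.act a * W.act b :=
  map_mul (Algebra.lsmul k k W) a b

lemma act_one (W : FDMod.{u} k A) : W.act (1 : A) = 1 := map_one (Algebra.lsmul k k W)

/-- `a` acts as the identity. -/
def ActsOne (W : FDMod.{u} k A) (a : A) : Prop := ∀ w : W, a • w = w

/-- `a` acts as zero. -/
def ActsZero (W : FDMod.{u} k A) (a : A) : Prop := ∀ w : W, a • w = 0

/-- Isomorphism of bundled modules. -/
def Iso (W W' : FDMod.{u} k A) : Prop := Nonempty (W ≃ₗ[A] W')

lemma Iso.refl (W : FDMod.{u} k A) : Iso W W := ⟨LinearEquiv.refl A W⟩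

lemma Iso.symm {W W' : FDMod.{u} k A} (h : Iso W W') : Iso W' W := h.elim fun e => ⟨e.symm⟩

lemma Iso.trans {W W' W'' : FDMod.{u} k A} (h : Iso W W') (h' : Iso W' W'') : Iso W W'' :=
  h.elim fun e => h'.elim fun e' => ⟨e.trans e'⟩

lemma ActsOne.of_iso {W W' : FDMod.{u} k A} (h : Iso W W') {a : A} (ha : W.ActsOne a) :
    W'.ActsOne a := by
  obtain ⟨e⟩ := h
  intro w
  have := ha (e.symm w)
  have h2 := congrArg e this
  rwa [map_smul, e.apply_symm_apply] at h2

lemma ActsZero.of_iso {W W' : FDMod.{u} k A} (h : Iso W W') {a : A} (ha : W.ActsZero a) :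
    W'.ActsZero a := by
  obtain ⟨e⟩ := h
  intro w
  have := ha (e.symm w)
  have h2 := congrArg e this
  rwa [map_smul, e.apply_symm_apply, map_zero] at h2

end FDMod

open FDMod

variable {k : Type uk} {A : Type uA} [Field k] [Ring A] [Algebra k A]

/-- Additive invariants of finite-dimensional modules (Euler–Poincaré maps). -/
structure IsAdditive {M : Type*} [AddCommMonoid M] (Φ : FDMod.{u} k A → M) : Prop where
  ses : ∀ (W' W W'' : FDMod.{u} k A) (i : W' →ₗ[A] W) (q : W →ₗ[A] W''),
    Injective i → Surjective q → Function.Exact i q → Φ W = Φ W' + Φ W''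
  zero : ∀ W : FDMod.{u} k A, Subsingleton W → Φ W = 0

namespace IsAdditive

variable {M : Type*} [AddCommMonoid M] {Φ : FDMod.{u} k A → M}

lemma iso (hΦ : IsAdditive Φ) {W W' : FDMod.{u} k A} (h : Iso W W') : Φ W = Φ W' := by
  obtain ⟨e⟩ := h
  have h1 := hΦ.ses W W' (FDMod.zero k A) e.toLinearMap 0 e.injective
    (fun x => ⟨0, Subsingleton.elim _ _⟩)
    (fun w => ⟨fun _ => ⟨e.symm w, e.apply_symm_apply w⟩, fun _ => rfl⟩)
  rw [h1, hΦ.zero (FDMod.zero k A) (inferInstanceAs (Subsingleton PUnit)), add_zero]

lemma sub_quot (hΦ : IsAdditive Φ) (W : FDMod.{u} k A) (N : Submodule A W) :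
    Φ W = Φ (W.sub N) + Φ (W.quot N) :=
  hΦ.ses (W.sub N) W (W.quot N) N.subtype N.mkQ Subtype.val_injective
    (Submodule.mkQ_surjective N) (LinearMap.exact_subtype_mkQ N)

/-- For group-valued functions, additivity on short exact sequences suffices. -/
lemma of_ses {M : Type*} [AddCommGroup M] {Φ : FDMod.{u} k A → M}
    (h : ∀ (W' W W'' : FDMod.{u} k A) (i : W' →ₗ[A] W) (q : W →ₗ[A] W''),
      Injective i → Surjective q → Function.Exact i q → Φ W = Φ W' + Φ W'') :
    IsAdditive Φ where
  ses := h
  zero W hW := by
    have h1 := h W W W 0 0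
      (fun x y _ => Subsingleton.elim x y) (fun x => ⟨0, Subsingleton.elim _ _⟩)
      (fun w => ⟨fun _ => ⟨0, Subsingleton.elim _ _⟩, fun _ => Subsingleton.elim _ _⟩)
    simpa using h1

end IsAdditive

/-- `L` is a list of composition factors of `W`, recursively: peel off a simple submodule. -/
def IsCompList : List (FDMod.{u} k A) → FDMod.{u} k A → Prop
  | [], W => Subsingleton W
  | T :: L, W => IsSimpleModule A T ∧ ∃ (Q : FDMod.{u} k A) (i : T →ₗ[A] W) (q : W →ₗ[A] Q),
      Injective i ∧ Surjective q ∧ Function.Exact i q ∧ IsCompList L Q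

lemma IsCompList.simple {L : List (FDMod.{u} k A)} {W : FDMod.{u} k A} (h : IsCompList L W) :
    ∀ T ∈ L, IsSimpleModule A T := by
  induction L generalizing W with
  | nil => intro T hT; simp at hT
  | cons T L ih =>
    obtain ⟨hT, Q, i, q, -, -, -, hQ⟩ := h
    intro T' hT'
    rcases List.mem_cons.1 hT' with rfl | h'
    · exact hT
    · exact ih hQ T' h'

lemma IsCompList.sum_eq {M : Type*} [AddCommMonoid M] {Φ : FDMod.{u} k A → M}
    (hΦ : IsAdditive Φ) {L : List (FDMod.{u} k A)} {W : FDMod.{u} k A} (h : IsCompList L W) :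
    Φ W = (L.map Φ).sum := by
  induction L generalizing W with
  | nil => simpa using hΦ.zero W h
  | cons T L ih =>
    obtain ⟨-, Q, i, q, hi, hq, hex, hQ⟩ := h
    rw [hΦ.ses T W Q i q hi hq hex, ih hQ]
    simp

/-- Every finite-dimensional module has a composition list. -/
theorem exists_compList (W : FDMod.{u} k A) : ∃ L : List (FDMod.{u} k A), IsCompList L W := by
  induction' hn : finrank k W using Nat.strong_induction_on with n ih generalizing W
  by_cases hW : Subsingleton W
  · exact ⟨[], hW⟩
  · rw [not_subsingleton_iff_nontrivial] at hW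
    have : IsArtinian k W := inferInstance
    have : IsArtinian A W := isArtinian_of_tower k inferInstance
    obtain ⟨N, hN⟩ := IsAtomic.exists_atom (Submodule A W)
    have hsimple : IsSimpleModule A N := isSimpleModule_iff_isAtom.2 hN
    have hlt : finrank k (W ⧸ N) < n := by
      have h1 := BlockCharpoly28.finrank_of_exact (N.subtype.restrictScalars k)
        (N.mkQ.restrictScalars k) Subtype.val_injective (Submodule.mkQ_surjective N)
        (LinearMap.exact_subtype_mkQ N)
      have h2 : 0 < finrank k N := by
        have : Nontrivial N := IsSimpleModule.nontrivial A N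
        exact finrank_pos
      omega
    obtain ⟨L, hL⟩ := ih _ hlt (W.quot N) rfl
    exact ⟨W.sub N :: L, hsimple, W.quot N, N.subtype, N.mkQ, Subtype.val_injective,
      Submodule.mkQ_surjective N, LinearMap.exact_subtype_mkQ N, hL⟩

end Fermat.Agent.TW.EUL.FDMod28
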