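/-
Brick E0.1c (helper28, program TW, WP4 step (2)): separation of non-isomorphic simple modules by
elements of the algebra, via the Jacobson density theorem.  Mathlib-only.
-/
import Mathlib
import Fermat.Agent.TW.EUL.FDMod28

set_option linter.unusedSectionVars false

namespace Fermat.Agent.TW.EUL.Density28

open Module Function FDMod28 FDMod28.FDMod

universe u uk uA

variable {k : Type uk} {A : Type uA} [Field k] [Ring A] [Algebra k A]

section Pi

variable {ι : Type} [Fintype ι] [DecidableEq ι] (T : ι → FDMod.{u} k A)

/-- An `A`-endomorphism of a product of pairwise non-isomorphic simple modules is diagonal. -/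
lemma end_apply_single (hs : ∀ i, IsSimpleModule A (T i))
    (hne : ∀ i j, i ≠ j → ¬ Iso (T i) (T j))
    (φ : Module.End A (Π i, T i)) (j : ι) (x : T j) (i : ι) (hij : i ≠ j) :
    φ (Pi.single j x) i = 0 := by
  let ψ : T j →ₗ[A] T i :=
    (LinearMap.proj i) ∘ₗ φ ∘ₗ (LinearMap.single A (fun i => (T i : Type u)) j)
  have hψ : ψ = 0 := by
    have := hs i
    have := hs j
    rcases LinearMap.bijective_or_eq_zero ψ with h | h
    · exact absurd ⟨LinearEquiv.ofBijective ψ h⟩ (hne j i (Ne.symm hij))
    · exact h
  have := LinearMap.congr_fun hψ x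
  simpa [ψ] using this

/-- The projection onto the `i₀`-th factor commutes with all `A`-endomorphisms. -/
noncomputable def projEnd (hs : ∀ i, IsSimpleModule A (T i))
    (hne : ∀ i j, i ≠ j → ¬ Iso (T i) (T j)) (i₀ : ι) :
    Module.End (Module.End A (Π i, T i)) (Π i, T i) where
  toFun m := Pi.single i₀ (m i₀)
  map_add' m m' := by simp [Pi.single_add]
  map_smul' φ m := by
    simp only [Module.End.smul_def, RingHom.id_apply]
    have hm : m = ∑ j, Pi.single j (m j) := (Finset.univ_sum_single m).symm
    funext i
    by_cases hi : i = i₀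
    · subst hi
      simp only [Pi.single_eq_same]
      conv_lhs => rw [hm, map_sum, Finset.sum_apply]
      rw [Finset.sum_eq_single i]
      · intro j _ hj
        exact end_apply_single T hs hne φ j (m j) i (Ne.symm hj)
      · intro h; exact absurd (Finset.mem_univ i) h
    · rw [Pi.single_eq_of_ne hi, end_apply_single T hs hne φ i₀ (m i₀) i hi]

@[simp] lemma projEnd_apply (hs : ∀ i, IsSimpleModule A (T i))
    (hne : ∀ i j, i ≠ j → ¬ Iso (T i) (T j)) (i₀ : ι) (m : Π i, T i) :
    projEnd T hs hne i₀ m = Pi.single i₀ (m i₀) := rfl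

/-- Multi-target density: an element acting as `1` on `T i₀` and as `0` on the other `T j`. -/
theorem exists_actsOne_actsZero (hs : ∀ i, IsSimpleModule A (T i))
    (hne : ∀ i j, i ≠ j → ¬ Iso (T i) (T j)) (i₀ : ι) :
    ∃ a : A, (T i₀).ActsOne a ∧ ∀ j, j ≠ i₀ → (T j).ActsZero a := by
  classical
  have : ∀ i, IsSimpleModule A (T i) := hs
  let s : Finset (Π i, T i) := Finset.univ.biUnion fun j : ι =>
    Finset.univ.image fun l : Fin (finrank k (T j)) => Pi.single j (Module.finBasis k (T j) l)
  obtain ⟨r, hr⟩ := jacobson_density (R := A) (projEnd T hs hne i₀) s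
  have hmem : ∀ (j : ι) (l : Fin (finrank k (T j))),
      (Pi.single j (Module.finBasis k (T j) l) : Π i, T i) ∈ s := by
    intro j l
    exact Finset.mem_biUnion.2 ⟨j, Finset.mem_univ _, Finset.mem_image.2 ⟨l, Finset.mem_univ _, rfl⟩⟩
  refine ⟨r, ?_, ?_⟩
  · have h : (T i₀).act r = LinearMap.id := by
      apply (Module.finBasis k (T i₀)).ext
      intro l
      have h1 := hr _ (hmem i₀ l)
      have h2 := congrFun h1 i₀
      simp only [projEnd_apply, Pi.single_eq_same, Pi.smul_apply] at h2
      simpa using h2.symm
    intro w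
    simpa using LinearMap.congr_fun h w
  · intro j hj
    have h : (T j).act r = 0 := by
      apply (Module.finBasis k (T j)).ext
      intro l
      have h1 := hr _ (hmem j l)
      have h2 := congrFun h1 j
      simp only [projEnd_apply, Pi.smul_apply, Pi.single_eq_same] at h2
      rw [Pi.single_eq_of_ne (Ne.symm hj)] at h2
      simp only [Pi.single_zero, Pi.zero_apply] at h2
      simpa using h2.symm
    intro w
    simpa using LinearMap.congr_fun h w

end Pi

/-- Binary density: non-isomorphic simple modules are separated by an element of `A`. -/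
theorem exists_separating (S T : FDMod.{u} k A) (hS : IsSimpleModule A S)
    (hT : IsSimpleModule A T) (hne : ¬ Iso S T) :
    ∃ a : A, S.ActsOne a ∧ T.ActsZero a := by
  let F : Bool → FDMod.{u} k A := fun b => cond b S T
  have hs : ∀ b, IsSimpleModule A (F b) := by
    intro b; cases b
    · exact hT
    · exact hS
  have hne' : ∀ i j, i ≠ j → ¬ Iso (F i) (F j) := by
    intro i j hij
    cases i <;> cases j
    · exact absurd rfl hij
    · exact fun h => hne h.symm
    · exact hne
    · exact absurd rfl hij
  obtain ⟨a, h1, h0⟩ := exists_actsOne_actsZero F hs hne' true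
  exact ⟨a, h1, h0 false (by simp)⟩

/-- List version: `a` acts as `1` on `T` and as `0` on every member of `L` not isomorphic
to `T`. -/
theorem exists_separating_list (T : FDMod.{u} k A) (hT : IsSimpleModule A T)
    (L : List (FDMod.{u} k A)) (hL : ∀ F ∈ L, IsSimpleModule A F) :
    ∃ a : A, T.ActsOne a ∧ ∀ F ∈ L, ¬ Iso F T → F.ActsZero a := by
  induction L with
  | nil => exact ⟨1, fun w => one_smul A w, by simp⟩
  | cons F L ih =>
    obtain ⟨a, ha1, ha0⟩ := ih (fun F' hF' => hL F' (List.mem_cons_of_mem _ hF'))
    by_cases hF : Iso F T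
    · refine ⟨a, ha1, ?_⟩
      intro F' hF' hne
      rcases List.mem_cons.1 hF' with rfl | h'
      · exact absurd hF hne
      · exact ha0 F' h' hne
    · obtain ⟨b, hb1, hb0⟩ := exists_separating T F hT (hL F List.mem_cons_self)
        (fun h => hF h.symm)
      refine ⟨a * b, ?_, ?_⟩
      · intro w
        rw [mul_smul, hb1 w, ha1 w]
      · intro F' hF' hne
        rcases List.mem_cons.1 hF' with rfl | h'
        · intro w
          rw [mul_smul, hb0 w, smul_zero]
        · intro w
          rw [mul_smul, ha0 F' h' hne (b • w)]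

end Fermat.Agent.TW.EUL.Density28
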