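/-
Brick E0.1d (helper28, program TW, WP4 step (2)): Brauer–Nesbitt.  Two finite lists of
finite-dimensional `A`-modules on which every `a : A` has the same characteristic polynomial
(product over the list) have the same value under every additive invariant; in characteristic
zero equality of traces suffices.  Mathlib-only, no character theory.
-/
import Mathlib
import Fermat.Agent.TW.EUL.Density28

set_option linter.unusedSectionVars false

namespace Fermat.Agent.TW.EUL.BrauerNesbitt28

open Module Function Polynomial FDMod28 FDMod28.FDMod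

universe u uk uA

variable {k : Type uk} {A : Type uA} [Field k] [Ring A] [Algebra k A]

/-- Characteristic polynomial of the action of `a`. -/
noncomputable def cp (a : A) (W : FDMod.{u} k A) : k[X] := (W.act a).charpoly

/-- Trace of the action of `a`. -/
noncomputable def tr (a : A) (W : FDMod.{u} k A) : k := LinearMap.trace k W (W.act a)

lemma cp_ses (a : A) (W' W W'' : FDMod.{u} k A) (i : W' →ₗ[A] W) (q : W →ₗ[A] W'')
    (hi : Injective i) (hq : Surjective q) (hex : Function.Exact i q) :
    cp a W = cp a W' * cp a W'' :=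
  BlockCharpoly28.charpoly_of_exact (i.restrictScalars k) (q.restrictScalars k) hi hq hex
    (W'.act a) (W.act a) (W''.act a) (fun v => by simp) (fun v => by simp)

lemma tr_ses (a : A) (W' W W'' : FDMod.{u} k A) (i : W' →ₗ[A] W) (q : W →ₗ[A] W'')
    (hi : Injective i) (hq : Surjective q) (hex : Function.Exact i q) :
    tr a W = tr a W' + tr a W'' :=
  BlockCharpoly28.trace_of_exact (i.restrictScalars k) (q.restrictScalars k) hi hq hex
    (W'.act a) (W.act a) (W''.act a) (fun v => by simp) (fun v => by simp)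

lemma cp_monic (a : A) (W : FDMod.{u} k A) : (cp a W).Monic := LinearMap.charpoly_monic _

lemma cp_ne_zero (a : A) (W : FDMod.{u} k A) : cp a W ≠ 0 := (cp_monic a W).ne_zero

lemma cp_of_subsingleton (a : A) (W : FDMod.{u} k A) (h : Subsingleton W) : cp a W = 1 := by
  apply Polynomial.eq_one_of_monic_natDegree_zero (cp_monic a W)
  rw [cp, LinearMap.charpoly_natDegree, finrank_zero_of_subsingleton]

lemma tr_of_subsingleton (a : A) (W : FDMod.{u} k A) (h : Subsingleton W) : tr a W = 0 := by
  have : W.act a = 0 := LinearMap.ext fun w => Subsingleton.elim _ _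
  rw [tr, this, map_zero]

lemma cp_isAdditive (a : A) : IsAdditive (fun W : FDMod.{u} k A => Additive.ofMul (cp a W)) where
  ses W' W W'' i q hi hq hex := by
    show Additive.ofMul (cp a W) = Additive.ofMul (cp a W') + Additive.ofMul (cp a W'')
    rw [cp_ses a W' W W'' i q hi hq hex, ofMul_mul]
  zero W h := by
    show Additive.ofMul (cp a W) = 0
    rw [cp_of_subsingleton a W h]; rfl

lemma tr_isAdditive (a : A) : IsAdditive (fun W : FDMod.{u} k A => tr a W) where
  ses := tr_ses a
  zero := tr_of_subsingleton a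

lemma finrank_isAdditive : IsAdditive (fun W : FDMod.{u} k A => finrank k W) where
  ses _ _ _ i q hi hq hex :=
    BlockCharpoly28.finrank_of_exact (i.restrictScalars k) (q.restrictScalars k) hi hq hex
  zero _ _ := finrank_zero_of_subsingleton

lemma cp_iso (a : A) {W W' : FDMod.{u} k A} (h : Iso W W') : cp a W = cp a W' :=
  congrArg Additive.toMul ((cp_isAdditive a).iso h)

lemma tr_iso (a : A) {W W' : FDMod.{u} k A} (h : Iso W W') : tr a W = tr a W' :=
  (tr_isAdditive a).iso h

lemma finrank_iso {W W' : FDMod.{u} k A} (h : Iso W W') : finrank k W = finrank k W' :=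
  (finrank_isAdditive (k := k) (A := A)).iso h

lemma cp_of_actsOne {a : A} {W : FDMod.{u} k A} (h : W.ActsOne a) :
    cp a W = (X - 1) ^ finrank k W := by
  have : W.act a = 1 := LinearMap.ext fun w => by simpa using h w
  rw [cp, this, LinearMap.charpoly_one]

lemma cp_of_actsZero {a : A} {W : FDMod.{u} k A} (h : W.ActsZero a) :
    cp a W = X ^ finrank k W := by
  have : W.act a = 0 := LinearMap.ext fun w => by simpa using h w
  rw [cp, this, LinearMap.charpoly_zero]

lemma tr_of_actsOne {a : A} {W : FDMod.{u} k A} (h : W.ActsOne a) :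
    tr a W = (finrank k W : k) := by
  have : W.act a = 1 := LinearMap.ext fun w => by simpa using h w
  rw [tr, this, LinearMap.trace_one]

lemma tr_of_actsZero {a : A} {W : FDMod.{u} k A} (h : W.ActsZero a) : tr a W = 0 := by
  have : W.act a = 0 := LinearMap.ext fun w => by simpa using h w
  rw [tr, this, map_zero]

lemma finrank_pos_of_simple (T : FDMod.{u} k A) (hT : IsSimpleModule A T) :
    0 < finrank k T := by
  have : Nontrivial T := IsSimpleModule.nontrivial A T
  exact finrank_pos

/-- Product of characteristic polynomials over a list. -/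
noncomputable def cpL (a : A) (L : List (FDMod.{u} k A)) : k[X] := (L.map (cp a)).prod

/-- Sum of traces over a list. -/
noncomputable def trL (a : A) (L : List (FDMod.{u} k A)) : k := (L.map (tr a)).sum

@[simp] lemma cpL_nil (a : A) : cpL a ([] : List (FDMod.{u} k A)) = 1 := rfl
@[simp] lemma cpL_cons (a : A) (W : FDMod.{u} k A) (L : List (FDMod.{u} k A)) :
    cpL a (W :: L) = cp a W * cpL a L := by simp [cpL]
@[simp] lemma trL_nil (a : A) : trL a ([] : List (FDMod.{u} k A)) = 0 := rfl
@[simp] lemma trL_cons (a : A) (W : FDMod.{u} k A) (L : List (FDMod.{u} k A)) :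
    trL a (W :: L) = tr a W + trL a L := by simp [trL]
lemma cpL_append (a : A) (L L' : List (FDMod.{u} k A)) :
    cpL a (L ++ L') = cpL a L * cpL a L' := by simp [cpL]
lemma trL_append (a : A) (L L' : List (FDMod.{u} k A)) :
    trL a (L ++ L') = trL a L + trL a L' := by simp [trL]
lemma cpL_perm (a : A) {L L' : List (FDMod.{u} k A)} (h : L.Perm L') : cpL a L = cpL a L' :=
  (h.map _).prod_eq
lemma trL_perm (a : A) {L L' : List (FDMod.{u} k A)} (h : L.Perm L') : trL a L = trL a L' :=
  (h.map _).sum_eq

lemma cpL_ne_zero (a : A) (L : List (FDMod.{u} k A)) : cpL a L ≠ 0 := by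
  induction L with
  | nil => simp
  | cons W L ih => rw [cpL_cons]; exact mul_ne_zero (cp_ne_zero a W) ih

/-- Two lists match: equal up to permutation and isomorphism of the members. -/
def Matched (L L' : List (FDMod.{u} k A)) : Prop :=
  ∃ L'' : List (FDMod.{u} k A), L'.Perm L'' ∧ List.Forall₂ Iso L L''

lemma forall₂_sum_eq {M : Type*} [AddCommMonoid M] {Φ : FDMod.{u} k A → M} (hΦ : IsAdditive Φ)
    {L L' : List (FDMod.{u} k A)} (hf : List.Forall₂ Iso L L') :
    (L.map Φ).sum = (L'.map Φ).sum := by
  induction hf with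
  | nil => rfl
  | cons h _ ih => simp [hΦ.iso h, ih]

lemma Matched.sum_eq {M : Type*} [AddCommMonoid M] {Φ : FDMod.{u} k A → M} (hΦ : IsAdditive Φ)
    {L L' : List (FDMod.{u} k A)} (h : Matched L L') : (L.map Φ).sum = (L'.map Φ).sum := by
  obtain ⟨L'', hp, hf⟩ := h
  rw [(hp.map Φ).sum_eq]
  exact forall₂_sum_eq hΦ hf

lemma Matched.cons {T T' : FDMod.{u} k A} (hT : Iso T T') {L L' L₁ : List (FDMod.{u} k A)}
    (h : Matched L L₁) (hp : L'.Perm (T' :: L₁)) : Matched (T :: L) L' := by
  obtain ⟨L'', hp', hf⟩ := h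
  exact ⟨T' :: L'', hp.trans (hp'.cons T'), List.Forall₂.cons hT hf⟩

lemma exists_perm_cons_of_mem {α : Type*} {a : α} {l : List α} (h : a ∈ l) :
    ∃ l₁ : List α, l.Perm (a :: l₁) := by
  obtain ⟨s, t, rfl⟩ := List.append_of_mem h
  exact ⟨s ++ t, List.perm_middle⟩

/-- Evaluation at `1` of the product of characteristic polynomials of an element acting as
zero on all members. -/
lemma eval_one_cpL_of_actsZero (a : A) (L : List (FDMod.{u} k A))
    (h : ∀ F ∈ L, F.ActsZero a) : (cpL a L).eval 1 = 1 := by
  induction L with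
  | nil => simp
  | cons W L ih =>
    rw [cpL_cons, eval_mul, ih (fun F hF => h F (List.mem_cons_of_mem _ hF)),
      cp_of_actsZero (h W List.mem_cons_self)]
    simp

/-- **Brauer–Nesbitt** for lists of simple modules: equal characteristic polynomials force the
lists to match. -/
theorem matched_of_cpL_eq (L : List (FDMod.{u} k A)) :
    ∀ (L' : List (FDMod.{u} k A)), (∀ T ∈ L, IsSimpleModule A T) →
      (∀ T ∈ L', IsSimpleModule A T) → (∀ a : A, cpL a L = cpL a L') → Matched L L' := by
  induction L with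
  | nil =>
    intro L' _ hL' h
    cases L' with
    | nil => exact ⟨[], List.Perm.refl _, List.Forall₂.nil⟩
    | cons T' L' =>
      exfalso
      have h1 := h 1
      rw [cpL_nil, cpL_cons, cp_of_actsOne (W := T') (fun w => one_smul A w)] at h1
      have h2 := congrArg (Polynomial.eval 1) h1
      have hpos := finrank_pos_of_simple T' (hL' T' List.mem_cons_self)
      simp [zero_pow hpos.ne'] at h2
  | cons T L ih =>
    intro L' hL hL' h
    have hT := hL T List.mem_cons_self
    have hex : ∃ T' ∈ L', Iso T' T := by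
      by_contra hcon
      push Not at hcon
      obtain ⟨a, ha1, ha0⟩ := Density28.exists_separating_list T hT L' hL'
      have h1 := congrArg (Polynomial.eval 1) (h a)
      rw [eval_one_cpL_of_actsZero a L' (fun F hF => ha0 F hF (hcon F hF)), cpL_cons,
        cp_of_actsOne ha1] at h1
      have hpos := finrank_pos_of_simple T hT
      simp [zero_pow hpos.ne'] at h1
    obtain ⟨T', hT'mem, hiso⟩ := hex
    obtain ⟨L₁, hp⟩ := exists_perm_cons_of_mem hT'mem
    have hL₁ : ∀ F ∈ L₁, IsSimpleModule A F := fun F hF =>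
      hL' F (hp.symm.subset (List.mem_cons_of_mem _ hF))
    have h' : ∀ a : A, cpL a L = cpL a L₁ := by
      intro a
      have h1 := h a
      rw [cpL_perm a hp, cpL_cons, cpL_cons, cp_iso a hiso] at h1
      exact mul_left_cancel₀ (cp_ne_zero a T) h1
    exact Matched.cons hiso.symm (ih L₁ (fun F hF => hL F (List.mem_cons_of_mem _ hF)) hL₁ h') hp

/-- Trace sum of an element acting as zero on all members. -/
lemma trL_of_actsZero (a : A) (L : List (FDMod.{u} k A))
    (h : ∀ F ∈ L, F.ActsZero a) : trL a L = 0 := by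
  induction L with
  | nil => simp
  | cons W L ih =>
    rw [trL_cons, ih (fun F hF => h F (List.mem_cons_of_mem _ hF)),
      tr_of_actsZero (h W List.mem_cons_self), add_zero]

/-- Trace sum of an element acting as `1` or `0` on each member is a natural number. -/
lemma exists_nat_trL (a : A) (L : List (FDMod.{u} k A))
    (h : ∀ F ∈ L, F.ActsOne a ∨ F.ActsZero a) : ∃ n : ℕ, trL a L = (n : k) := by
  induction L with
  | nil => exact ⟨0, by simp⟩
  | cons W L ih =>
    obtain ⟨n, hn⟩ := ih (fun F hF => h F (List.mem_cons_of_mem _ hF))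
    rcases h W List.mem_cons_self with hW | hW
    · refine ⟨finrank k W + n, ?_⟩
      rw [trL_cons, hn, tr_of_actsOne hW, Nat.cast_add]
    · refine ⟨n, ?_⟩
      rw [trL_cons, hn, tr_of_actsZero hW, zero_add]

/-- **Brauer–Nesbitt in characteristic zero** for lists of simple modules: equal traces force
the lists to match. -/
theorem matched_of_trL_eq [CharZero k] (L : List (FDMod.{u} k A)) :
    ∀ (L' : List (FDMod.{u} k A)), (∀ T ∈ L, IsSimpleModule A T) →
      (∀ T ∈ L', IsSimpleModule A T) → (∀ a : A, trL a L = trL a L') → Matched L L' := by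
  induction L with
  | nil =>
    intro L' _ hL' h
    cases L' with
    | nil => exact ⟨[], List.Perm.refl _, List.Forall₂.nil⟩
    | cons T' L' =>
      exfalso
      obtain ⟨n, hn⟩ := exists_nat_trL (1 : A) L' (fun F _ => Or.inl fun w => one_smul A w)
      have h1 := h 1
      rw [trL_nil, trL_cons, hn, tr_of_actsOne (W := T') (fun w => one_smul A w)] at h1
      have hpos := finrank_pos_of_simple T' (hL' T' List.mem_cons_self)
      have h2 : ((finrank k T' + n : ℕ) : k) = 0 := by rw [Nat.cast_add]; exact h1.symm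
      rw [Nat.cast_eq_zero] at h2
      omega
  | cons T L ih =>
    intro L' hL hL' h
    have hT := hL T List.mem_cons_self
    have hex : ∃ T' ∈ L', Iso T' T := by
      by_contra hcon
      push Not at hcon
      obtain ⟨a, ha1, ha0⟩ := Density28.exists_separating_list T hT (L ++ L') (by
        intro F hF
        rcases List.mem_append.1 hF with h' | h'
        · exact hL F (List.mem_cons_of_mem _ h')
        · exact hL' F h')
      obtain ⟨n, hn⟩ := exists_nat_trL a L (fun F hF => by
        by_cases hiso : Iso F T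
        · exact Or.inl (ActsOne.of_iso hiso.symm ha1)
        · exact Or.inr (ha0 F (List.mem_append_left _ hF) hiso))
      have h1 := h a
      rw [trL_of_actsZero a L' (fun F hF => ha0 F (List.mem_append_right _ hF) (hcon F hF)),
        trL_cons, hn, tr_of_actsOne ha1] at h1
      have hpos := finrank_pos_of_simple T hT
      have h2 : ((finrank k T + n : ℕ) : k) = 0 := by rw [Nat.cast_add]; exact h1
      rw [Nat.cast_eq_zero] at h2
      omega
    obtain ⟨T', hT'mem, hiso⟩ := hex
    obtain ⟨L₁, hp⟩ := exists_perm_cons_of_mem hT'mem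
    have hL₁ : ∀ F ∈ L₁, IsSimpleModule A F := fun F hF =>
      hL' F (hp.symm.subset (List.mem_cons_of_mem _ hF))
    have h' : ∀ a : A, trL a L = trL a L₁ := by
      intro a
      have h1 := h a
      rw [trL_perm a hp, trL_cons, trL_cons, tr_iso a hiso] at h1
      exact add_left_cancel h1
    exact Matched.cons hiso.symm (ih L₁ (fun F hF => hL F (List.mem_cons_of_mem _ hF)) hL₁ h') hp

/-- `L` is a concatenation of composition lists of the members of `𝓦`. -/
def IsCompListL : List (FDMod.{u} k A) → List (FDMod.{u} k A) → Prop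
  | L, [] => L = []
  | L, W :: 𝓦 => ∃ L₁ L₂, L = L₁ ++ L₂ ∧ IsCompList L₁ W ∧ IsCompListL L₂ 𝓦

lemma exists_compListL (𝓦 : List (FDMod.{u} k A)) : ∃ L, IsCompListL L 𝓦 := by
  induction 𝓦 with
  | nil => exact ⟨[], rfl⟩
  | cons W 𝓦 ih =>
    obtain ⟨L₂, h₂⟩ := ih
    obtain ⟨L₁, h₁⟩ := exists_compList W
    exact ⟨L₁ ++ L₂, L₁, L₂, rfl, h₁, h₂⟩

lemma IsCompListL.simple {𝓦 : List (FDMod.{u} k A)} :
    ∀ {L : List (FDMod.{u} k A)}, IsCompListL L 𝓦 → ∀ T ∈ L, IsSimpleModule A T := by
  induction 𝓦 with
  | nil => intro L h T hT; rw [show L = [] from h] at hT; simp at hT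
  | cons W 𝓦 ih =>
    intro L h T hT
    obtain ⟨L₁, L₂, rfl, h₁, h₂⟩ := h
    rcases List.mem_append.1 hT with h' | h'
    · exact h₁.simple T h'
    · exact ih h₂ T h'

lemma IsCompListL.sum_eq {M : Type*} [AddCommMonoid M] {Φ : FDMod.{u} k A → M}
    (hΦ : IsAdditive Φ) {𝓦 : List (FDMod.{u} k A)} :
    ∀ {L : List (FDMod.{u} k A)}, IsCompListL L 𝓦 → (𝓦.map Φ).sum = (L.map Φ).sum := by
  induction 𝓦 with
  | nil => intro L h; rw [show L = [] from h]
  | cons W 𝓦 ih =>
    intro L h
    obtain ⟨L₁, L₂, rfl, h₁, h₂⟩ := h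
    rw [List.map_cons, List.sum_cons, List.map_append, List.sum_append, h₁.sum_eq hΦ, ih h₂]

lemma IsCompListL.cpL_eq (a : A) {𝓦 L : List (FDMod.{u} k A)} (h : IsCompListL L 𝓦) :
    cpL a 𝓦 = cpL a L := by
  have h1 := h.sum_eq (cp_isAdditive a)
  have h2 : ∀ l : List (FDMod.{u} k A),
      (l.map (fun W => Additive.ofMul (cp a W))).sum = Additive.ofMul (cpL a l) := by
    intro l
    induction l with
    | nil => rfl
    | cons W l ih => rw [List.map_cons, List.sum_cons, ih, cpL_cons, ofMul_mul]
  rw [h2, h2] at h1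
  exact congrArg Additive.toMul h1

lemma IsCompListL.trL_eq (a : A) {𝓦 L : List (FDMod.{u} k A)} (h : IsCompListL L 𝓦) :
    trL a 𝓦 = trL a L :=
  h.sum_eq (tr_isAdditive a)

/-- **Brauer–Nesbitt**: two lists of finite-dimensional modules with the same characteristic
polynomials for every element of the algebra have the same value under every additive
invariant. -/
theorem sum_eq_of_cpL_eq {M : Type*} [AddCommMonoid M] {Φ : FDMod.{u} k A → M}
    (hΦ : IsAdditive Φ) (𝓦 𝓦' : List (FDMod.{u} k A)) (h : ∀ a : A, cpL a 𝓦 = cpL a 𝓦') :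
    (𝓦.map Φ).sum = (𝓦'.map Φ).sum := by
  obtain ⟨L, hL⟩ := exists_compListL 𝓦
  obtain ⟨L', hL'⟩ := exists_compListL 𝓦'
  rw [hL.sum_eq hΦ, hL'.sum_eq hΦ]
  apply Matched.sum_eq hΦ
  apply matched_of_cpL_eq L L' hL.simple hL'.simple
  intro a
  rw [← hL.cpL_eq a, ← hL'.cpL_eq a, h a]

/-- **Brauer–Nesbitt in characteristic zero**: equal traces suffice. -/
theorem sum_eq_of_trL_eq [CharZero k] {M : Type*} [AddCommMonoid M] {Φ : FDMod.{u} k A → M}
    (hΦ : IsAdditive Φ) (𝓦 𝓦' : List (FDMod.{u} k A)) (h : ∀ a : A, trL a 𝓦 = trL a 𝓦') :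
    (𝓦.map Φ).sum = (𝓦'.map Φ).sum := by
  obtain ⟨L, hL⟩ := exists_compListL 𝓦
  obtain ⟨L', hL'⟩ := exists_compListL 𝓦'
  rw [hL.sum_eq hΦ, hL'.sum_eq hΦ]
  apply Matched.sum_eq hΦ
  apply matched_of_trL_eq L L' hL.simple hL'.simple
  intro a
  rw [← hL.trL_eq a, ← hL'.trL_eq a, h a]

/-- In characteristic zero, equal traces imply equal characteristic polynomials. -/
theorem cpL_eq_of_trL_eq [CharZero k] (𝓦 𝓦' : List (FDMod.{u} k A))
    (h : ∀ a : A, trL a 𝓦 = trL a 𝓦') (a : A) : cpL a 𝓦 = cpL a 𝓦' := by
  have h1 := sum_eq_of_trL_eq (cp_isAdditive a) 𝓦 𝓦' h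
  have h2 : ∀ l : List (FDMod.{u} k A),
      (l.map (fun W => Additive.ofMul (cp a W))).sum = Additive.ofMul (cpL a l) := by
    intro l
    induction l with
    | nil => rfl
    | cons W l ih => rw [List.map_cons, List.sum_cons, ih, cpL_cons, ofMul_mul]
  rw [h2, h2] at h1
  exact congrArg Additive.toMul h1

end Fermat.Agent.TW.EUL.BrauerNesbitt28
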