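/-
Brick E0.2a (helper28, program TW, WP4 step (2)): bridge between additive invariants of
finite-dimensional `k[G]`-modules (`FDMod28`) and additive functions on `Rep k G`;
Brauer–Nesbitt for families of representations with multiplicities.  Mathlib-only.
-/
import Mathlib
import Fermat.Agent.TW.EUL.BrauerNesbitt28

set_option linter.unusedSectionVars false

namespace Fermat.Agent.TW.EUL.RepBridge28

open Module Function Polynomial FDMod28 FDMod28.FDMod BrauerNesbitt28 Representation

universe u uk uG

variable {k : Type uk} {G : Type uG} [Field k] [Monoid G]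

/-- A finite-dimensional representation as a bundled `k[G]`-module. -/
noncomputable abbrev ofRep {V : Type u} [AddCommGroup V] [Module k V] [Module.Finite k V]
    (ρ : Representation k G V) : FDMod.{u} k (MonoidAlgebra k G) :=
  FDMod.of k (MonoidAlgebra k G) ρ.asModule

/-- A bundled `k[G]`-module as an object of `Rep k G`. -/
noncomputable abbrev toRep (W : FDMod.{u} k (MonoidAlgebra k G)) : Rep.{u} k G :=
  Rep.of (Representation.ofModule' (k := k) (G := G) W)

lemma ofModule'_apply (W : FDMod.{u} k (MonoidAlgebra k G)) (g : G) (w : W) :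
    Representation.ofModule' (k := k) (G := G) W g w = MonoidAlgebra.of k G g • w := by
  simp [Representation.ofModule']

section cptr

variable {V : Type u} [AddCommGroup V] [Module k V] [Module.Finite k V]
  (ρ : Representation k G V)

lemma conj_act (a : MonoidAlgebra k G) :
    ρ.asModuleEquiv.conj ((ofRep ρ).act a) = ρ.asAlgebraHom a := by
  ext v
  simp [LinearEquiv.conj_apply]

lemma cp_ofRep (a : MonoidAlgebra k G) : cp a (ofRep ρ) = (ρ.asAlgebraHom a).charpoly := by
  rw [← conj_act ρ a, LinearEquiv.charpoly_conj]; rfl

lemma tr_ofRep (a : MonoidAlgebra k G) :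
    tr a (ofRep ρ) = LinearMap.trace k V (ρ.asAlgebraHom a) := by
  rw [← conj_act ρ a, LinearMap.trace_conj']; rfl

end cptr

/-- Additive functions on finite-dimensional objects of `Rep k G`. -/
def IsAdditiveRep {M : Type*} [AddCommGroup M] (φ : Rep.{u} k G → M) : Prop :=
  ∀ (A B C : Rep.{u} k G) [Module.Finite k A] [Module.Finite k B] [Module.Finite k C]
    (f : A.ρ.IntertwiningMap B.ρ) (g : B.ρ.IntertwiningMap C.ρ),
    Injective f → Surjective g → Function.Exact f g → φ B = φ A + φ C

section transfer

variable {M : Type*} [AddCommGroup M] {φ : Rep.{u} k G → M}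

/-- A `k[G]`-linear map as an intertwining map. -/
noncomputable def toIntertwining {W W' : FDMod.{u} k (MonoidAlgebra k G)}
    (i : W →ₗ[MonoidAlgebra k G] W') :
    (Representation.ofModule' (k := k) (G := G) W).IntertwiningMap
      (Representation.ofModule' (k := k) (G := G) W') where
  toLinearMap := i.restrictScalars k
  isIntertwining' g := by
    ext w
    simp only [LinearMap.coe_comp, Function.comp_apply, LinearMap.coe_restrictScalars,
      ofModule'_apply, map_smul]

@[simp] lemma toIntertwining_apply {W W' : FDMod.{u} k (MonoidAlgebra k G)}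
    (i : W →ₗ[MonoidAlgebra k G] W') (w : W) : toIntertwining i w = i w := rfl

lemma IsAdditiveRep.isAdditive (hφ : IsAdditiveRep φ) :
    IsAdditive (fun W : FDMod.{u} k (MonoidAlgebra k G) => φ (toRep W)) :=
  IsAdditive.of_ses fun W' W W'' i q hi hq hex =>
    hφ (toRep W') (toRep W) (toRep W'') (toIntertwining i) (toIntertwining q) hi hq hex

/-- Isomorphism invariance. -/
lemma IsAdditiveRep.equiv (hφ : IsAdditiveRep φ) {V V' : Type u} [AddCommGroup V]
    [Module k V] [Module.Finite k V] [AddCommGroup V'] [Module k V'] [Module.Finite k V']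
    {ρ : Representation k G V} {σ : Representation k G V'} (e : ρ.Equiv σ) :
    φ (Rep.of ρ) = φ (Rep.of σ) := by
  let Z : Rep.{u} k G := Rep.of (Representation.trivial k G PUnit.{u+1})
  have hZ : φ Z = 0 := by
    have := hφ Z Z Z 0 0 (fun x y _ => Subsingleton.elim x y) (fun x => ⟨0, Subsingleton.elim _ _⟩)
      (fun w => ⟨fun _ => ⟨0, Subsingleton.elim _ _⟩, fun _ => Subsingleton.elim _ _⟩)
    simpa using this
  have h := hφ (Rep.of ρ) (Rep.of σ) Z e.toIntertwiningMap 0 e.injective
    (fun x => ⟨0, Subsingleton.elim _ _⟩)
    (fun w => ⟨fun _ => ⟨e.symm w, e.apply_symm_apply w⟩, fun _ => rfl⟩)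
  rw [h, hZ, add_zero]

/-- The round trip `Rep → FDMod → Rep` is an isomorphism. -/
noncomputable def roundTrip {V : Type u} [AddCommGroup V] [Module k V] [Module.Finite k V]
    (ρ : Representation k G V) :
    (Representation.ofModule' (k := k) (G := G) (ofRep ρ)).Equiv ρ :=
  Representation.Equiv.mk ρ.asModuleEquiv (fun g => by
    ext w
    simp only [LinearMap.coe_comp, LinearEquiv.coe_coe, Function.comp_apply]
    calc ρ.asModuleEquiv (Representation.ofModule' (k := k) (G := G) (ofRep ρ) g w)
        = ρ.asModuleEquiv (MonoidAlgebra.of k G g • w) :=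
          congrArg _ (ofModule'_apply (ofRep ρ) g w)
      _ = ρ g (ρ.asModuleEquiv w) := by
          rw [asModuleEquiv_map_smul, MonoidAlgebra.of_apply, asAlgebraHom_single, one_smul])

lemma IsAdditiveRep.toRep_ofRep (hφ : IsAdditiveRep φ) {V : Type u} [AddCommGroup V]
    [Module k V] [Module.Finite k V] (ρ : Representation k G V) :
    φ (toRep (ofRep ρ)) = φ (Rep.of ρ) :=
  hφ.equiv (roundTrip ρ)

end transfer

section expand

variable {I α : Type*}

/-- Expand a family with multiplicities into a list. -/
def expand (l : List I) (m : I → ℕ) (W : I → α) : List α :=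
  l.flatMap fun i => List.replicate (m i) (W i)

@[simp] lemma expand_nil (m : I → ℕ) (W : I → α) : expand [] m W = [] := rfl

@[simp] lemma expand_cons (i : I) (l : List I) (m : I → ℕ) (W : I → α) :
    expand (i :: l) m W = List.replicate (m i) (W i) ++ expand l m W := by
  simp [expand]

lemma sum_map_expand {M : Type*} [AddCommMonoid M] (l : List I) (m : I → ℕ) (W : I → α)
    (f : α → M) : ((expand l m W).map f).sum = (l.map fun i => m i • f (W i)).sum := by
  induction l with
  | nil => simp
  | cons i l ih =>
    rw [expand_cons, List.map_append, List.sum_append, ih, List.map_replicate,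
      List.sum_replicate, List.map_cons, List.sum_cons]

lemma cpL_replicate (a : MonoidAlgebra k G) (n : ℕ) (W : FDMod.{u} k (MonoidAlgebra k G)) :
    cpL a (List.replicate n W) = cp a W ^ n := by
  induction n with
  | zero => simp
  | succ n ih => rw [List.replicate_succ, cpL_cons, ih, pow_succ']

lemma cpL_expand (a : MonoidAlgebra k G) (l : List I) (m : I → ℕ)
    (W : I → FDMod.{u} k (MonoidAlgebra k G)) :
    cpL a (expand l m W) = (l.map fun i => cp a (W i) ^ m i).prod := by
  induction l with
  | nil => simp
  | cons i l ih =>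
    rw [expand_cons, cpL_append, ih, cpL_replicate, List.map_cons, List.prod_cons]

end expand

section BN

variable {I : Type*} [Fintype I] {V : I → Type u} [∀ i, AddCommGroup (V i)]
  [∀ i, Module k (V i)] [∀ i, Module.Finite k (V i)] (ρ : ∀ i, Representation k G (V i))
  (m m' : I → ℕ)

/-- **Brauer–Nesbitt for families of representations with multiplicities.** -/
theorem sum_eq_of_charpoly_eq {M : Type*} [AddCommGroup M] {φ : Rep.{u} k G → M}
    (hφ : IsAdditiveRep φ)
    (h : ∀ a : MonoidAlgebra k G, ∏ i, ((ρ i).asAlgebraHom a).charpoly ^ m i =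
      ∏ i, ((ρ i).asAlgebraHom a).charpoly ^ m' i) :
    ∑ i, m i • φ (Rep.of (ρ i)) = ∑ i, m' i • φ (Rep.of (ρ i)) := by
  have key := sum_eq_of_cpL_eq hφ.isAdditive
    (expand Finset.univ.toList m fun i => ofRep (ρ i))
    (expand Finset.univ.toList m' fun i => ofRep (ρ i)) (by
      intro a
      rw [cpL_expand, cpL_expand, Finset.prod_map_toList, Finset.prod_map_toList]
      simp_rw [cp_ofRep]
      exact h a)
  rw [sum_map_expand, sum_map_expand, Finset.sum_map_toList, Finset.sum_map_toList] at key
  simp_rw [hφ.toRep_ofRep] at key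
  exact key

/-- The trace of the action of an element of the group algebra is the linear extension of the
traces of the group elements. -/
lemma sum_trace_asAlgebraHom_eq
    (h : ∀ g : G, ∑ i, m i • LinearMap.trace k (V i) (ρ i g) =
      ∑ i, m' i • LinearMap.trace k (V i) (ρ i g)) (a : MonoidAlgebra k G) :
    ∑ i, m i • LinearMap.trace k (V i) ((ρ i).asAlgebraHom a) =
      ∑ i, m' i • LinearMap.trace k (V i) ((ρ i).asAlgebraHom a) := by
  induction a using MonoidAlgebra.induction_linear with
  | zero => simp
  | add x y hx hy =>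
    simp only [map_add, smul_add, Finset.sum_add_distrib, hx, hy]
  | single g r =>
    simp only [asAlgebraHom_single, map_smul, smul_comm _ r, ← Finset.smul_sum, h g]

/-- **Characteristic zero**: equal traces of all group elements force equal characteristic
polynomials of all elements of the group algebra. -/
theorem charpoly_eq_of_trace_eq [CharZero k]
    (h : ∀ g : G, ∑ i, m i • LinearMap.trace k (V i) (ρ i g) =
      ∑ i, m' i • LinearMap.trace k (V i) (ρ i g)) (a : MonoidAlgebra k G) :
    ∏ i, ((ρ i).asAlgebraHom a).charpoly ^ m i =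
      ∏ i, ((ρ i).asAlgebraHom a).charpoly ^ m' i := by
  have key := cpL_eq_of_trL_eq
    (expand Finset.univ.toList m fun i => ofRep (ρ i))
    (expand Finset.univ.toList m' fun i => ofRep (ρ i)) (by
      intro b
      unfold trL
      rw [sum_map_expand, sum_map_expand, Finset.sum_map_toList, Finset.sum_map_toList]
      simp_rw [tr_ofRep]
      exact sum_trace_asAlgebraHom_eq ρ m m' h b) a
  rw [cpL_expand, cpL_expand, Finset.prod_map_toList, Finset.prod_map_toList] at key
  simp_rw [cp_ofRep] at key
  exact key

end BN

end Fermat.Agent.TW.EUL.RepBridge28
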