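/-
Brick E0.2b (helper28, program TW, WP4 step (2)): permutation representations over varying base
rings.  If two families of finite `G`-sets (with multiplicities) have the same numbers of fixed
points for every `g : G`, then the corresponding permutation representations over `ZMod p` have
the same value under every additive invariant.  (Lift to `ℤ`, compare over `ℚ` by traces,
reduce mod `p`, Brauer–Nesbitt.)  Mathlib-only.
-/
import Mathlib
import Fermat.Agent.TW.EUL.RepBridge28

set_option linter.unusedSectionVars false

namespace Fermat.Agent.TW.EUL.PermLattice28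

open Module Function Polynomial Representation RepBridge28

universe u uG

variable {G : Type uG} [Group G]

section perm

variable (X : Type u) [MulAction G X]

/-- The permutation representation on functions `X → R`: `(g • f) x = f (g⁻¹ • x)`. -/
def permRep (R : Type*) [CommRing R] : Representation R G (X → R) where
  toFun g := LinearMap.funLeft R R (fun x => g⁻¹ • x)
  map_one' := by ext f x; simp
  map_mul' g h := by ext f x; simp [mul_smul]

@[simp] lemma permRep_apply (R : Type*) [CommRing R] (g : G) (f : X → R) (x : X) :
    permRep X R g f x = f (g⁻¹ • x) := rfl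

variable [Fintype X] [DecidableEq X]

/-- The matrix of the action of an element of the group algebra on `X → R`. -/
noncomputable def permMat (R : Type*) [CommRing R] (a : MonoidAlgebra R G) : Matrix X X R :=
  LinearMap.toMatrix' ((permRep X R).asAlgebraHom a)

lemma charpoly_asAlgebraHom (R : Type*) [CommRing R] (a : MonoidAlgebra R G) :
    ((permRep X R).asAlgebraHom a).charpoly = (permMat X R a).charpoly := by
  rw [permMat, ← LinearMap.toMatrix_eq_toMatrix', LinearMap.charpoly_toMatrix]

lemma permMat_single (R : Type*) [CommRing R] (g : G) (r : R) (x y : X) :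
    permMat X R (MonoidAlgebra.single g r) x y = r * (if g⁻¹ • x = y then 1 else 0) := by
  rw [permMat, asAlgebraHom_single, map_smul, Matrix.smul_apply, LinearMap.toMatrix'_apply,
    permRep_apply, Pi.single_apply, smul_eq_mul]

lemma permMat_zero (R : Type*) [CommRing R] : permMat X R (0 : MonoidAlgebra R G) = 0 := by
  rw [permMat, map_zero, map_zero]

lemma permMat_add (R : Type*) [CommRing R] (a b : MonoidAlgebra R G) :
    permMat X R (a + b) = permMat X R a + permMat X R b := by
  rw [permMat, map_add, map_add]; rfl

/-- Base change of the action matrices. -/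
lemma permMat_map {R S : Type*} [CommRing R] [CommRing S] (f : R →+* S)
    (a : MonoidAlgebra R G) :
    permMat X S (MonoidAlgebra.mapRingHom G f a) = (permMat X R a).map f := by
  induction a using MonoidAlgebra.induction_linear with
  | zero => simp [permMat_zero]
  | add x y hx hy =>
    rw [map_add, permMat_add, permMat_add, hx, hy, Matrix.map_add f f.map_add]
  | single g r =>
    ext x y
    rw [MonoidAlgebra.mapRingHom_single, permMat_single, Matrix.map_apply, permMat_single,
      map_mul]
    split_ifs <;> simp

/-- The trace of a group element is the number of its fixed points. -/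
lemma trace_permRep (R : Type*) [CommRing R] (g : G) :
    LinearMap.trace R (X → R) (permRep X R g) = (Nat.card (MulAction.fixedBy X g) : R) := by
  rw [LinearMap.trace_eq_matrix_trace R (Pi.basisFun R X), LinearMap.toMatrix_eq_toMatrix',
    Matrix.trace]
  simp only [Matrix.diag_apply, LinearMap.toMatrix'_apply, permRep_apply, Pi.single_apply]
  rw [Finset.sum_boole, Nat.card_eq_fintype_card, Fintype.card_subtype]
  congr 2
  ext x
  simp only [Finset.mem_filter, Finset.mem_univ, true_and, MulAction.mem_fixedBy]
  rw [inv_smul_eq_iff, eq_comm]

end perm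

section main

variable (p : ℕ) [Fact p.Prime] {I : Type*} [Fintype I] (X : I → Type u)
  [∀ i, MulAction G (X i)] [∀ i, Fintype (X i)] [∀ i, DecidableEq (X i)] (m m' : I → ℕ)

lemma exists_int_lift (a : MonoidAlgebra (ZMod p) G) :
    ∃ b : MonoidAlgebra ℤ G, MonoidAlgebra.mapRingHom G (Int.castRingHom (ZMod p)) b = a := by
  induction a using MonoidAlgebra.induction_linear with
  | zero => exact ⟨0, map_zero _⟩
  | add x y hx hy =>
    obtain ⟨bx, hbx⟩ := hx
    obtain ⟨by', hby⟩ := hy
    exact ⟨bx + by', by rw [map_add, hbx, hby]⟩
  | single g r =>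
    obtain ⟨z, hz⟩ := ZMod.intCast_surjective r
    exact ⟨MonoidAlgebra.single g z, by rw [MonoidAlgebra.mapRingHom_single]; simp [hz]⟩

/-- Integral characteristic polynomial identity from equality of fixed point counts. -/
lemma int_charpoly_eq
    (hfix : ∀ g : G, ∑ i, m i * Nat.card (MulAction.fixedBy (X i) g) =
      ∑ i, m' i * Nat.card (MulAction.fixedBy (X i) g)) (b : MonoidAlgebra ℤ G) :
    ∏ i, (permMat (X i) ℤ b).charpoly ^ m i = ∏ i, (permMat (X i) ℤ b).charpoly ^ m' i := by
  apply Polynomial.map_injective (Int.castRingHom ℚ) Int.cast_injective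
  have hQ := charpoly_eq_of_trace_eq (k := ℚ) (G := G) (fun i => permRep (X i) ℚ) m m' (by
    intro g
    simp only [trace_permRep, nsmul_eq_mul]
    exact_mod_cast congrArg (Nat.cast : ℕ → ℚ) (hfix g))
    (MonoidAlgebra.mapRingHom G (Int.castRingHom ℚ) b)
  simp only [charpoly_asAlgebraHom, permMat_map, Matrix.charpoly_map] at hQ
  simpa only [Polynomial.map_prod, Polynomial.map_pow] using hQ

/-- **Permutation modules mod `p` with equal fixed point counts have equal additive
invariants.** -/
theorem perm_sum_eq {M : Type*} [AddCommGroup M] {φ : Rep.{u} (ZMod p) G → M}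
    (hφ : IsAdditiveRep φ)
    (hfix : ∀ g : G, ∑ i, m i * Nat.card (MulAction.fixedBy (X i) g) =
      ∑ i, m' i * Nat.card (MulAction.fixedBy (X i) g)) :
    ∑ i, m i • φ (Rep.of (permRep (X i) (ZMod p))) =
      ∑ i, m' i • φ (Rep.of (permRep (X i) (ZMod p))) := by
  apply sum_eq_of_charpoly_eq (fun i => permRep (X i) (ZMod p)) m m' hφ
  intro a
  obtain ⟨b, rfl⟩ := exists_int_lift p a
  have h := congrArg (Polynomial.map (Int.castRingHom (ZMod p))) (int_charpoly_eq X m m' hfix b)
  simp only [Polynomial.map_prod, Polynomial.map_pow, ← Matrix.charpoly_map, ← permMat_map] at h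
  simpa only [charpoly_asAlgebraHom] using h

end main

end Fermat.Agent.TW.EUL.PermLattice28
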