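/-
Brick E0.4a (helper28, program TW, WP4 step (2)): tensoring with a fixed finite-dimensional
representation preserves additivity; tensor with a permutation module is the module of functions
with the conjugation action; projection formula `M ⊗ k[G/H] ≅ coind_H^G (Res_H M)`.
Mathlib-only.
-/
import Mathlib
import Fermat.Agent.TW.EUL.PermLattice28

set_option linter.unusedSectionVars false

namespace Fermat.Agent.TW.EUL.TensorAdd28

open Module Function Representation RepBridge28 PermLattice28 TensorProduct

universe u uk uG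

variable {k : Type uk} {G : Type uG} [Field k]

section tensor

variable [Monoid G] {M : Type u} [AddCommGroup M] [Module k M] [Module.Finite k M]
  (ρM : Representation k G M)

/-- `φ (M ⊗ -)`. -/
noncomputable def tensorFun {N : Type*} (φ : Rep.{u} k G → N) : Rep.{u} k G → N :=
  fun A => φ (Rep.of (ρM.tprod A.ρ))

lemma tensorFun_isAdditiveRep {N : Type*} [AddCommGroup N] {φ : Rep.{u} k G → N}
    (hφ : IsAdditiveRep φ) : IsAdditiveRep (tensorFun ρM φ) := by
  intro A B C _ _ _ f g hf hg hex
  exact hφ (Rep.of (ρM.tprod A.ρ)) (Rep.of (ρM.tprod B.ρ)) (Rep.of (ρM.tprod C.ρ))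
    (f.lTensor ρM) (g.lTensor ρM)
    (Module.Flat.lTensor_preserves_injective_linearMap (M := M) f.toLinearMap hf)
    (LinearMap.lTensor_surjective M (g := g.toLinearMap) hg)
    (lTensor_exact M (f := f.toLinearMap) (g := g.toLinearMap) hex hg)

end tensor

section conj

variable [Group G] {M : Type u} [AddCommGroup M] [Module k M] (ρM : Representation k G M)
  (X : Type*) [MulAction G X]

/-- Functions `X → M` with the action `(g • f) x = g • f (g⁻¹ • x)`. -/
def conjRep : Representation k G (X → M) where
  toFun g :=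
    { toFun := fun f x => ρM g (f (g⁻¹ • x))
      map_add' := fun f f' => by ext x; simp
      map_smul' := fun c f => by ext x; simp }
  map_one' := by ext f x; simp
  map_mul' g h := by ext f x; simp [mul_smul]

@[simp] lemma conjRep_apply (g : G) (f : X → M) (x : X) :
    conjRep ρM X g f x = ρM g (f (g⁻¹ • x)) := rfl

variable [Fintype X] [DecidableEq X]

/-- `M ⊗ k[X] ≅ (X → M)`. -/
noncomputable def tensorPermEquiv : (ρM.tprod (permRep X k)).Equiv (conjRep ρM X) :=
  Representation.Equiv.mk (TensorProduct.piScalarRight k k M X) (fun g => by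
    apply TensorProduct.ext'
    intro m f
    ext x
    simp [TensorProduct.piScalarRight_apply])

end conj

section unique

variable [Group G] {M : Type u} [AddCommGroup M] [Module k M] (ρM : Representation k G M)
  (X : Type*) [MulAction G X] [Unique X]

/-- For a one-point `G`-set, `(X → M) ≅ M`. -/
noncomputable def conjRepUnique : (conjRep ρM X).Equiv ρM :=
  Representation.Equiv.mk (LinearEquiv.funUnique X k M) (fun g => by
    ext f
    simp only [LinearMap.coe_comp, LinearEquiv.coe_coe, Function.comp_apply,
      LinearEquiv.funUnique_apply, Function.eval, conjRep_apply]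
    rw [Subsingleton.elim (g⁻¹ • (default : X)) default])

end unique

section coind

variable [Group G] {M : Type u} [AddCommGroup M] [Module k M] (ρM : Representation k G M)
  (H : Subgroup G)

/-- The restriction of a representation to a subgroup. -/
abbrev res : Representation k H M := ρM.comp H.subtype

/-- `(G ⧸ H → M) → coind_H^G (Res_H M)`, `f ↦ (g ↦ g • f (g⁻¹ H))`. -/
noncomputable def toCoind : (G ⧸ H → M) →ₗ[k] coindV H.subtype (res ρM H) where
  toFun f := ⟨fun g => ρM g (f ((g⁻¹ : G) : G ⧸ H)), by
    intro h g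
    have h1 : (((H.subtype h * g)⁻¹ : G) : G ⧸ H) = ((g⁻¹ : G) : G ⧸ H) := by
      rw [QuotientGroup.eq]
      simp
    simp only [h1, map_mul, Module.End.mul_apply, MonoidHom.comp_apply]⟩
  map_add' f f' := by ext g; simp
  map_smul' c f := by ext g; simp

/-- The inverse map. -/
noncomputable def ofCoind (F : coindV H.subtype (res ρM H)) : G ⧸ H → M :=
  fun x => Quotient.liftOn' x (fun y => ρM y (F.1 y⁻¹)) (by
    intro a b hab
    rw [QuotientGroup.leftRel_apply] at hab
    have hF := F.2 ⟨a⁻¹ * b, hab⟩⁻¹ a⁻¹
    simp only [Subgroup.subtype_apply, Subgroup.coe_inv, mul_inv_rev, inv_inv,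
      MonoidHom.comp_apply] at hF
    have h2 : b⁻¹ * a * a⁻¹ = b⁻¹ := by group
    rw [h2] at hF
    show ρM a (F.1 a⁻¹) = ρM b (F.1 b⁻¹)
    rw [hF, ← Module.End.mul_apply, ← map_mul, mul_inv_cancel_left])

lemma ofCoind_mk (F : coindV H.subtype (res ρM H)) (y : G) :
    ofCoind ρM H F (y : G ⧸ H) = ρM y (F.1 y⁻¹) := rfl

lemma coind_apply_val (g g' : G) (F : coindV H.subtype (res ρM H)) :
    ((coind H.subtype (res ρM H) g F : coindV H.subtype (res ρM H)) : G → M) g' =
      F.1 (g' * g) := rfl

lemma toCoind_val (f : G ⧸ H → M) (g : G) :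
    (toCoind ρM H f : G → M) g = ρM g (f ((g⁻¹ : G) : G ⧸ H)) := rfl

lemma toCoind_conj (g : G) (f : G ⧸ H → M) :
    toCoind ρM H (conjRep ρM (G ⧸ H) g f) = coind H.subtype (res ρM H) g (toCoind ρM H f) := by
  apply Subtype.ext
  funext g'
  rw [coind_apply_val, toCoind_val, toCoind_val, conjRep_apply, ← Module.End.mul_apply, ← map_mul]
  congr 2
  show (((g⁻¹ * g'⁻¹ : G) : G ⧸ H)) = ((((g' * g)⁻¹ : G) : G ⧸ H))
  rw [mul_inv_rev]

lemma toCoind_bijective : Function.Bijective (toCoind ρM H) := by
  constructor
  · intro f f' hff'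
    funext x
    obtain ⟨y, rfl⟩ := QuotientGroup.mk_surjective x
    have h1 : (toCoind ρM H f : G → M) y⁻¹ = (toCoind ρM H f' : G → M) y⁻¹ := by rw [hff']
    rw [toCoind_val, toCoind_val, inv_inv] at h1
    have h2 := congrArg (ρM y) h1
    simpa [← Module.End.mul_apply, ← map_mul] using h2
  · intro F
    refine ⟨ofCoind ρM H F, ?_⟩
    apply Subtype.ext
    funext g
    rw [toCoind_val, ofCoind_mk, inv_inv, ← Module.End.mul_apply, ← map_mul, mul_inv_cancel,
      map_one, Module.End.one_apply]

/-- `(G ⧸ H → M) ≅ coind_H^G (Res_H M)`. -/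
noncomputable def conjCoindEquiv :
    (conjRep ρM (G ⧸ H)).Equiv (coind H.subtype (res ρM H)) :=
  Representation.Equiv.mk
    (LinearEquiv.ofBijective (toCoind ρM H) (toCoind_bijective ρM H))
    (fun g => by
      ext f : 1
      exact toCoind_conj ρM H g f)

end coind

end Fermat.Agent.TW.EUL.TensorAdd28
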