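/-
Brick E0.4b (helper28, program TW, WP4 step (2)): removing the `p`-part.  Let `Y → X` be a map of
finite `G`-sets whose fibres are the orbits of a `G`-equivariant permutation `r` of `Y` with
`r ^ q = 1`, `q = p ^ s`, and `|Y| = q |X|`.  Then in characteristic `p` every additive invariant
satisfies `ψ (k[Y]) = q • ψ (k[X])` (filtration of `k[Y]` by the kernels of `(r - 1) ^ j`).
Mathlib-only.
-/
import Mathlib
import Fermat.Agent.TW.EUL.TensorAdd28

set_option linter.unusedSectionVars false

namespace Fermat.Agent.TW.EUL.PPart28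

open Module Function Representation RepBridge28 PermLattice28 Polynomial

universe u uG

variable {k : Type} {G : Type uG} [Field k] [Group G]

lemma zero_of_subsingleton {N : Type*} [AddCommGroup N] {φ : Rep.{u} k G → N}
    (hφ : IsAdditiveRep φ) (A : Rep.{u} k G) [Subsingleton A] [Module.Finite k A] : φ A = 0 := by
  have := hφ A A A 0 0 (fun x y _ => Subsingleton.elim x y) (fun x => ⟨0, Subsingleton.elim _ _⟩)
    (fun w => ⟨fun _ => ⟨0, Subsingleton.elim _ _⟩, fun _ => Subsingleton.elim _ _⟩)
  simpa using this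

/-- The data of a `G`-map `π : Y → B` whose fibres are orbits of an equivariant permutation `r`
of order dividing `q`. -/
structure FiberData (G : Type uG) [Group G] (Y B : Type u) [MulAction G Y] [MulAction G B]
    (q : ℕ) where
  r : Y → Y
  r_smul : ∀ (g : G) (y : Y), r (g • y) = g • r y
  r_iter : r^[q] = id
  π : Y → B
  π_surj : Surjective π
  π_smul : ∀ (g : G) (y : Y), π (g • y) = g • π y
  π_r : ∀ y : Y, π (r y) = π y
  fib : ∀ y y' : Y, π y = π y' → ∃ i : ℕ, y' = r^[i] y

variable {Y B : Type u} [MulAction G Y] [MulAction G B] {q : ℕ} (D : FiberData G Y B q)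

namespace FiberData

/-- Translation by `r` on functions. -/
def T : (Y → k) →ₗ[k] (Y → k) := LinearMap.funLeft k k D.r

@[simp] lemma T_apply (f : Y → k) (y : Y) : D.T (k := k) f y = f (D.r y) := rfl

lemma T_pow_apply (n : ℕ) (f : Y → k) (y : Y) : (D.T (k := k) ^ n) f y = f (D.r^[n] y) := by
  induction n generalizing f with
  | zero => simp
  | succ n ih =>
    rw [pow_succ, Module.End.mul_apply, ih, T_apply, Function.iterate_succ_apply']

lemma T_pow_q : D.T (k := k) ^ q = 1 := by
  ext f y
  rw [T_pow_apply, D.r_iter]; rfl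

lemma T_comm (g : G) (f : Y → k) : D.T (permRep Y k g f) = permRep Y k g (D.T f) := by
  funext y
  simp only [T_apply, permRep_apply, D.r_smul]

/-- `t = T - 1`. -/
def t : (Y → k) →ₗ[k] (Y → k) := D.T - 1

lemma t_comm (g : G) (f : Y → k) : D.t (permRep Y k g f) = permRep Y k g (D.t f) := by
  simp only [t, LinearMap.sub_apply, Module.End.one_apply, T_comm, map_sub]

lemma t_pow_comm (n : ℕ) (g : G) (f : Y → k) :
    (D.t ^ n) (permRep Y k g f) = permRep Y k g ((D.t ^ n) f) := by
  induction n generalizing f with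
  | zero => simp
  | succ n ih =>
    rw [pow_succ, Module.End.mul_apply, Module.End.mul_apply, t_comm, ih]

lemma t_pow_q (p s : ℕ) [Fact p.Prime] [CharP k p] (hq : q = p ^ s) : D.t (k := k) ^ q = 0 := by
  have h1 : ((X : k[X]) - 1) ^ p ^ s = X ^ p ^ s - 1 := by rw [sub_pow_char_pow, one_pow]
  have h2 := congrArg (Polynomial.aeval (D.T (k := k))) h1
  simp only [map_pow, map_sub, aeval_X, map_one] at h2
  subst hq
  rw [t, h2, T_pow_q, sub_self]

/-- The kernel filtration. -/
def K (j : ℕ) : Submodule k (Y → k) := LinearMap.ker (D.t ^ j)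

lemma mem_K {j : ℕ} {f : Y → k} : f ∈ D.K j ↔ (D.t ^ j) f = 0 := LinearMap.mem_ker

lemma K_inv (j : ℕ) (g : G) : D.K (k := k) j ≤ (D.K j).comap (permRep Y k g) := by
  intro f hf
  rw [Submodule.mem_comap, mem_K, t_pow_comm, D.mem_K.1 hf, map_zero]

lemma K_le_succ (j : ℕ) : D.K (k := k) j ≤ D.K (j + 1) := by
  intro f hf
  rw [mem_K, pow_succ', Module.End.mul_apply, D.mem_K.1 hf, map_zero]

lemma K_zero : D.K (k := k) 0 = ⊥ := by
  ext f; simp [mem_K]

lemma K_q (p s : ℕ) [Fact p.Prime] [CharP k p] (hq : q = p ^ s) : D.K (k := k) q = ⊤ := by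
  ext f; simp [mem_K, D.t_pow_q p s hq]

/-- The inclusion `K j → K (j+1)`, linear. -/
def inclL (j : ℕ) : D.K (k := k) j →ₗ[k] D.K (k := k) (j + 1) :=
  Submodule.inclusion (D.K_le_succ j)

/-- `t ^ j : K (j+1) → K 1`, linear. -/
def tjL (j : ℕ) : D.K (k := k) (j + 1) →ₗ[k] D.K (k := k) 1 :=
  (D.t ^ j).restrict (p := D.K (j + 1)) (q := D.K 1) (by
    intro f hf
    rw [mem_K, pow_one, ← Module.End.mul_apply, ← pow_succ']
    exact D.mem_K.1 hf)

lemma inclL_coe (j : ℕ) (f : D.K (k := k) j) : ((D.inclL j f : D.K (j + 1)) : Y → k) = f := rfl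

lemma tjL_coe (j : ℕ) (f : D.K (k := k) (j + 1)) :
    ((D.tjL j f : D.K 1) : Y → k) = (D.t ^ j) f := rfl

lemma inclL_injective (j : ℕ) : Injective (D.inclL (k := k) j) :=
  Submodule.inclusion_injective _

lemma inclL_tjL_exact (j : ℕ) : Function.Exact (D.inclL (k := k) j) (D.tjL j) := by
  intro f
  constructor
  · intro hf
    have h1 : (D.t ^ j) (f : Y → k) = 0 := by
      have := congrArg Subtype.val hf
      simpa [tjL_coe] using this
    exact ⟨⟨f.1, D.mem_K.2 h1⟩, Subtype.ext rfl⟩
  · rintro ⟨f', rfl⟩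
    apply Subtype.ext
    rw [tjL_coe, inclL_coe]
    exact D.mem_K.1 f'.2

/-- The representation on the `j`-th kernel. -/
def ρK (j : ℕ) : Representation k G (D.K (k := k) j) :=
  (permRep Y k).subrepresentation (D.K j) (D.K_inv j)

@[simp] lemma ρK_apply_coe (j : ℕ) (g : G) (f : D.K (k := k) j) :
    ((D.ρK j g f : D.K j) : Y → k) = permRep Y k g f := rfl

/-- The inclusion `K j → K (j+1)`. -/
def incl (j : ℕ) : (D.ρK (k := k) j).IntertwiningMap (D.ρK (j + 1)) where
  toLinearMap := D.inclL j
  isIntertwining' g := by ext f; rfl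

/-- `t ^ j : K (j+1) → K 1`. -/
def tj (j : ℕ) : (D.ρK (k := k) (j + 1)).IntertwiningMap (D.ρK 1) where
  toLinearMap := D.tjL j
  isIntertwining' g := by
    ext f : 1
    apply Subtype.ext
    simp only [LinearMap.coe_comp, Function.comp_apply, tjL_coe, ρK_apply_coe, t_pow_comm]

variable [Fintype Y] [Fintype B]

instance finite_K (j : ℕ) : Module.Finite k (D.K (k := k) j) :=
  Module.Finite.of_injective (D.K j).subtype Subtype.val_injective

set_option synthInstance.maxHeartbeats 100000 in
lemma finrank_ker_tjL (j : ℕ) :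
    finrank k (LinearMap.ker (D.tjL (k := k) j)) = finrank k (D.K (k := k) j) := by
  have e := BlockCharpoly28.kerEquivOfExact (D.inclL (k := k) j) (D.tjL j)
    (D.inclL_injective j) (D.inclL_tjL_exact j)
  exact e.finrank_eq.symm

lemma finrank_K_succ_le (j : ℕ) :
    finrank k (D.K (k := k) (j + 1)) ≤ finrank k (D.K (k := k) j) + finrank k (D.K (k := k) 1) := by
  have h1 := LinearMap.finrank_range_add_finrank_ker (D.tjL (k := k) j)
  have h2 := D.finrank_ker_tjL (k := k) j
  have h3 : finrank k (LinearMap.range (D.tjL (k := k) j)) ≤ finrank k (D.K (k := k) 1) :=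
    Submodule.finrank_le _
  omega

lemma tjL_surjective_of_finrank (j : ℕ)
    (h : finrank k (D.K (k := k) (j + 1)) =
      finrank k (D.K (k := k) j) + finrank k (D.K (k := k) 1)) :
    Surjective (D.tjL (k := k) j) := by
  have h1 := LinearMap.finrank_range_add_finrank_ker (D.tjL (k := k) j)
  have h2 := D.finrank_ker_tjL (k := k) j
  have h3 : LinearMap.range (D.tjL (k := k) j) = ⊤ := by
    apply Submodule.eq_top_of_finrank_eq
    omega
  exact LinearMap.range_eq_top.1 h3

omit [Fintype B] in
lemma subsingleton_K_zero : Subsingleton (D.K (k := k) 0) := by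
  refine ⟨fun a b => Subtype.ext ?_⟩
  have ha := D.mem_K.1 a.2
  have hb := D.mem_K.1 b.2
  simp only [pow_zero, Module.End.one_apply] at ha hb
  rw [ha, hb]

/-- Pull-back of functions along `π`, landing in `K 1`. -/
def pullL : (B → k) →ₗ[k] D.K (k := k) 1 :=
  (LinearMap.funLeft k k D.π).codRestrict (D.K 1) (by
    intro f
    rw [mem_K, pow_one]
    funext y
    simp [t, D.π_r])

lemma pullL_coe (f : B → k) (y : Y) : ((D.pullL f : D.K (k := k) 1) : Y → k) y = f (D.π y) := rfl

lemma apply_iterate_of_mem_K_one {f : Y → k} (hf : f ∈ D.K (k := k) 1) (i : ℕ) (y : Y) :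
    f (D.r^[i] y) = f y := by
  have h1 : ∀ y, f (D.r y) = f y := by
    intro y
    have := congrFun (D.mem_K.1 hf) y
    simp only [pow_one, t, LinearMap.sub_apply, T_apply, Module.End.one_apply, Pi.sub_apply,
      Pi.zero_apply] at this
    exact sub_eq_zero.1 this
  induction i with
  | zero => rfl
  | succ i ih => rw [Function.iterate_succ_apply', h1, ih]

lemma pullL_bijective : Bijective (D.pullL (k := k)) := by
  constructor
  · intro f f' hff'
    funext b
    obtain ⟨y, rfl⟩ := D.π_surj b
    have := congrFun (congrArg Subtype.val hff') y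
    simpa [pullL_coe] using this
  · intro f
    refine ⟨fun b => f.1 (Function.surjInv D.π_surj b), ?_⟩
    apply Subtype.ext
    funext y
    rw [pullL_coe]
    obtain ⟨i, hi⟩ := D.fib y (Function.surjInv D.π_surj (D.π y))
      (Function.surjInv_eq D.π_surj (D.π y)).symm
    rw [hi, D.apply_iterate_of_mem_K_one f.2]

/-- `k[B] ≅ K 1` as representations. -/
noncomputable def pullEquiv : (permRep B k).Equiv (D.ρK (k := k) 1) :=
  Representation.IntertwiningMap.ofBijective
    { toLinearMap := D.pullL
      isIntertwining' := fun g => by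
        ext f : 1
        apply Subtype.ext
        funext y
        simp only [LinearMap.coe_comp, Function.comp_apply, pullL_coe, permRep_apply,
          ρK_apply_coe, D.π_smul] }
    D.pullL_bijective

lemma finrank_K_one : finrank k (D.K (k := k) 1) = Fintype.card B := by
  rw [← (LinearEquiv.ofBijective D.pullL D.pullL_bijective).finrank_eq,
    Module.finrank_fintype_fun_eq_card]

omit [Fintype B] in
lemma finrank_K_q (p s : ℕ) [Fact p.Prime] [CharP k p] (hq : q = p ^ s) :
    finrank k (D.K (k := k) q) = Fintype.card Y := by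
  rw [D.K_q p s hq, finrank_top, Module.finrank_fintype_fun_eq_card]

end FiberData

/-- A subadditive sequence reaching the maximal value is linear. -/
lemma nat_aux (e : ℕ → ℕ) (c q : ℕ) (h0 : e 0 = 0) (hs : ∀ j, e (j + 1) ≤ e j + c)
    (hq : e q = q * c) : ∀ j ≤ q, e j = j * c := by
  have up : ∀ j, e j ≤ j * c := by
    intro j
    induction j with
    | zero => simp [h0]
    | succ j ih => have := hs j; rw [Nat.add_mul, one_mul]; omega
  have shift : ∀ i j, e (j + i) ≤ e j + i * c := by
    intro i
    induction i with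
    | zero => intro j; simp
    | succ i ih =>
      intro j
      have h1 := hs (j + i)
      have h2 := ih j
      rw [Nat.add_mul, one_mul, ← add_assoc]
      omega
  intro j hj
  obtain ⟨i, rfl⟩ := Nat.exists_eq_add_of_le hj
  have h1 := shift i j
  have h2 := up j
  rw [hq, Nat.add_mul] at h1
  omega

namespace FiberData

variable [Fintype Y] [Fintype B]

lemma finrank_K_eq (p s : ℕ) [Fact p.Prime] [CharP k p] (hq : q = p ^ s)
    (hcard : Fintype.card Y = q * Fintype.card B) :
    ∀ j ≤ q, finrank k (D.K (k := k) j) = j * Fintype.card B := by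
  apply nat_aux (fun j => finrank k (D.K (k := k) j)) (Fintype.card B) q
  · have := D.subsingleton_K_zero (k := k)
    exact finrank_zero_of_subsingleton
  · intro j
    have := D.finrank_K_succ_le (k := k) j
    rwa [D.finrank_K_one] at this
  · rw [D.finrank_K_q p s hq, hcard]

include D in
/-- **Removing the `p`-part**: `ψ (k[Y]) = q • ψ (k[B])`. -/
theorem perm_eq_nsmul (p s : ℕ) [Fact p.Prime] [CharP k p] (hq : q = p ^ s)
    (hcard : Fintype.card Y = q * Fintype.card B) {N : Type*} [AddCommGroup N]
    {ψ : Rep.{u} k G → N} (hψ : IsAdditiveRep ψ) :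
    ψ (Rep.of (permRep Y k)) = q • ψ (Rep.of (permRep B k)) := by
  have hdim := D.finrank_K_eq (k := k) p s hq hcard
  have hstep : ∀ j < q, ψ (Rep.of (D.ρK (k := k) (j + 1))) =
      ψ (Rep.of (D.ρK (k := k) j)) + ψ (Rep.of (D.ρK (k := k) 1)) := by
    intro j hj
    refine hψ (Rep.of (D.ρK (k := k) j)) (Rep.of (D.ρK (k := k) (j + 1)))
      (Rep.of (D.ρK (k := k) 1)) (D.incl j) (D.tj j) (D.inclL_injective j) ?_
      (D.inclL_tjL_exact j)
    apply D.tjL_surjective_of_finrank
    rw [hdim (j + 1) (by omega), hdim j (by omega), hdim 1 (by omega)]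
    ring
  have hind : ∀ j ≤ q, ψ (Rep.of (D.ρK (k := k) j)) = j • ψ (Rep.of (D.ρK (k := k) 1)) := by
    intro j
    induction j with
    | zero =>
      intro _
      have := D.subsingleton_K_zero (k := k)
      rw [zero_smul]
      exact zero_of_subsingleton hψ (Rep.of (D.ρK (k := k) 0))
    | succ j ih =>
      intro hj
      rw [hstep j (by omega), ih (by omega), succ_nsmul]
  have htop : ψ (Rep.of (D.ρK (k := k) q)) = ψ (Rep.of (permRep Y k)) := by
    apply hψ.equiv
    refine Representation.IntertwiningMap.ofBijective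
      { toLinearMap := (D.K (k := k) q).subtype
        isIntertwining' := fun g => by ext f : 1; rfl } ⟨Subtype.val_injective, ?_⟩
    intro f
    exact ⟨⟨f, by rw [D.K_q p s hq]; trivial⟩, rfl⟩
  rw [← htop, hind q le_rfl, hψ.equiv D.pullEquiv]

end FiberData

end Fermat.Agent.TW.EUL.PPart28
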