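/-
Brick E0.4c (helper28, program TW, WP4 step (2)): the coset spaces `G ⧸ ⟨c ^ q⟩ → G ⧸ ⟨c⟩` form
a `FiberData` (fibres are orbits of right multiplication by `c`).  Mathlib-only.
-/
import Mathlib
import Fermat.Agent.TW.EUL.PPart28

set_option linter.unusedSectionVars false

namespace Fermat.Agent.TW.EUL.CosetFiber28

open Function PPart28

universe u

variable {G : Type u} [Group G] (c : G) (q : ℕ)

/-- Right multiplication by `c` on `G ⧸ ⟨c ^ q⟩`. -/
def rmul : G ⧸ Subgroup.zpowers (c ^ q) → G ⧸ Subgroup.zpowers (c ^ q) :=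
  Quotient.map' (· * c) (by
    intro a b hab
    rw [QuotientGroup.leftRel_apply] at hab ⊢
    obtain ⟨n, hn⟩ := Subgroup.mem_zpowers_iff.1 hab
    have h1 : (a * c)⁻¹ * (b * c) = c⁻¹ * (a⁻¹ * b) * c := by group
    rw [h1, ← hn]
    have h2 : c⁻¹ * (c ^ q) ^ n * c = (c ^ q) ^ n := by
      have hc : Commute c ((c ^ q) ^ n) := ((Commute.refl c).pow_right q).zpow_right n
      rw [mul_assoc, ← hc.eq, inv_mul_cancel_left]
    rw [h2]
    exact Subgroup.zpow_mem _ (Subgroup.mem_zpowers _) n)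

lemma rmul_mk (x : G) : rmul c q (x : G ⧸ Subgroup.zpowers (c ^ q)) = ((x * c : G) : G ⧸ _) := rfl

lemma rmul_iterate_mk (n : ℕ) (x : G) :
    (rmul c q)^[n] (x : G ⧸ Subgroup.zpowers (c ^ q)) = ((x * c ^ n : G) : G ⧸ _) := by
  induction n with
  | zero => simp
  | succ n ih => rw [Function.iterate_succ_apply', ih, rmul_mk, mul_assoc, ← pow_succ]

/-- The projection `G ⧸ ⟨c ^ q⟩ → G ⧸ ⟨c⟩`. -/
def proj : G ⧸ Subgroup.zpowers (c ^ q) → G ⧸ Subgroup.zpowers c :=
  Quotient.map' id (by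
    intro a b hab
    rw [QuotientGroup.leftRel_apply] at hab ⊢
    have hle : Subgroup.zpowers (c ^ q) ≤ Subgroup.zpowers c :=
      Subgroup.zpowers_le.2 (Subgroup.pow_mem _ (Subgroup.mem_zpowers c) q)
    exact hle hab)

lemma proj_mk (x : G) : proj c q (x : G ⧸ Subgroup.zpowers (c ^ q)) = (x : G ⧸ _) := rfl

variable [Finite G]

/-- The fibre data of `G ⧸ ⟨c ^ q⟩ → G ⧸ ⟨c⟩`. -/
def fiberData : FiberData G (G ⧸ Subgroup.zpowers (c ^ q)) (G ⧸ Subgroup.zpowers c) q where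
  r := rmul c q
  r_smul g y := by
    obtain ⟨x, rfl⟩ := QuotientGroup.mk_surjective y
    show rmul c q ((g * x : G) : G ⧸ _) = g • rmul c q (x : G ⧸ _)
    rw [rmul_mk, rmul_mk, mul_assoc]; rfl
  r_iter := by
    funext y
    obtain ⟨x, rfl⟩ := QuotientGroup.mk_surjective y
    rw [rmul_iterate_mk, id, QuotientGroup.eq]
    simp
  π := proj c q
  π_surj y := by
    obtain ⟨x, rfl⟩ := QuotientGroup.mk_surjective y
    exact ⟨(x : G ⧸ _), rfl⟩
  π_smul g y := by
    obtain ⟨x, rfl⟩ := QuotientGroup.mk_surjective y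
    rfl
  π_r y := by
    obtain ⟨x, rfl⟩ := QuotientGroup.mk_surjective y
    rw [rmul_mk, proj_mk, proj_mk, QuotientGroup.eq]
    simp
  fib y y' h := by
    obtain ⟨x, rfl⟩ := QuotientGroup.mk_surjective y
    obtain ⟨x', rfl⟩ := QuotientGroup.mk_surjective y'
    rw [proj_mk, proj_mk, QuotientGroup.eq] at h
    rw [← mem_powers_iff_mem_zpowers, Submonoid.mem_powers_iff] at h
    obtain ⟨i, hi⟩ := h
    refine ⟨i, ?_⟩
    rw [rmul_iterate_mk, hi]
    simp

/-- Cardinalities: `|G ⧸ ⟨c^q⟩| = q |G ⧸ ⟨c⟩|` when `orderOf c = q * m`. -/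
lemma card_quot (m : ℕ) (hq : q ≠ 0) (h : orderOf c = q * m) :
    Nat.card (G ⧸ Subgroup.zpowers (c ^ q)) = q * Nat.card (G ⧸ Subgroup.zpowers c) := by
  have hm : 0 < m := by
    have := orderOf_pos c
    rcases Nat.eq_zero_or_pos m with h0 | h0
    · rw [h0, mul_zero] at h; omega
    · exact h0
  have h1 := Subgroup.card_eq_card_quotient_mul_card_subgroup (Subgroup.zpowers (c ^ q))
  have h2 := Subgroup.card_eq_card_quotient_mul_card_subgroup (Subgroup.zpowers c)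
  rw [Nat.card_zpowers] at h1 h2
  have h3 : orderOf (c ^ q) = m := by
    rw [orderOf_pow' c hq, h, Nat.gcd_eq_right (dvd_mul_right q m), Nat.mul_div_cancel_left m
      (Nat.pos_of_ne_zero hq)]
  rw [h3] at h1
  rw [h] at h2
  have h4 : Nat.card (G ⧸ Subgroup.zpowers (c ^ q)) * m =
      (q * Nat.card (G ⧸ Subgroup.zpowers c)) * m := by
    rw [← h1, h2]; ring
  exact Nat.eq_of_mul_eq_mul_right hm h4

lemma orderOf_pow_eq (m : ℕ) (hq : q ≠ 0) (h : orderOf c = q * m) : orderOf (c ^ q) = m := by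
  rw [orderOf_pow' c hq, h, Nat.gcd_eq_right (dvd_mul_right q m), Nat.mul_div_cancel_left m
    (Nat.pos_of_ne_zero hq)]

end Fermat.Agent.TW.EUL.CosetFiber28
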