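/-
Brick E0 main theorem (helper28, program TW, WP4 Tate step (2)): the induction principle for
additive invariants of `𝔽_p[G]`-modules.

Let `G` be a finite group, `p` a prime, and `φ` an integer-valued function on finite-dimensional
`𝔽_p`-representations of `G` which is additive on short exact sequences.  If `φ` vanishes on
`coind_C^G σ` for every cyclic subgroup `C` of order prime to `p` and every finite-dimensional
representation `σ` of `C`, then `φ = 0`.

Proof without Brauer characters: Artin induction for the trivial character in fixed-point form,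
reduction of permutation lattices mod `p` with Brauer–Nesbitt via Jacobson density, tensoring,
the projection formula, and a kernel filtration to remove the `p`-part of cyclic groups.
Mathlib-only.
-/
import Mathlib
import Fermat.Agent.TW.EUL.ArtinFix28
import Fermat.Agent.TW.EUL.CosetFiber28

set_option linter.unusedSectionVars false
set_option linter.style.haveILetI false

namespace Fermat.Agent.TW.EUL.Main28

open Function Representation RepBridge28 PermLattice28 TensorAdd28 PPart28 CosetFiber28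

universe u

variable {G : Type u} [Group G] [Finite G] (p : ℕ) [Fact p.Prime]

/-- The hypothesis on cyclic subgroups of order prime to `p`. -/
def VanishesOnCyclic (φ : Rep.{u} (ZMod p) G → ℤ) : Prop :=
  ∀ (C : Subgroup G), IsCyclic C → ¬ p ∣ Nat.card C →
    ∀ (N : Type u) [AddCommGroup N] [Module (ZMod p) N] [Module.Finite (ZMod p) N]
      (σ : Representation (ZMod p) C N), φ (Rep.of (coind C.subtype σ)) = 0

variable {p} {φ : Rep.{u} (ZMod p) G → ℤ} {M : Type u} [AddCommGroup M] [Module (ZMod p) M]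
  [Module.Finite (ZMod p) M] (ρ : Representation (ZMod p) G M)

/-- `φ (M ⊗ k[G/H]) = φ (coind_H^G Res_H M)`. -/
lemma tensorFun_perm (hφ : IsAdditiveRep φ) (H : Subgroup G) :
    tensorFun ρ φ (Rep.of (permRep (G ⧸ H) (ZMod p))) =
      φ (Rep.of (coind H.subtype (res ρ H))) := by
  classical
  letI : Fintype (G ⧸ H) := Fintype.ofFinite _
  unfold tensorFun
  rw [show (Rep.of (permRep (G ⧸ H) (ZMod p))).ρ = permRep (G ⧸ H) (ZMod p) from rfl,
    hφ.equiv (tensorPermEquiv ρ (G ⧸ H)), hφ.equiv (conjCoindEquiv ρ H)]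

/-- `φ (M ⊗ k[pt]) = φ M`. -/
lemma tensorFun_top (hφ : IsAdditiveRep φ) :
    tensorFun ρ φ (Rep.of (permRep (G ⧸ (⊤ : Subgroup G)) (ZMod p))) = φ (Rep.of ρ) := by
  classical
  letI : Fintype (G ⧸ (⊤ : Subgroup G)) := Fintype.ofFinite _
  haveI : Subsingleton (G ⧸ (⊤ : Subgroup G)) := QuotientGroup.subsingleton_quotient_top
  letI : Unique (G ⧸ (⊤ : Subgroup G)) := uniqueOfSubsingleton ((1 : G) : G ⧸ _)
  unfold tensorFun
  rw [show (Rep.of (permRep (G ⧸ (⊤ : Subgroup G)) (ZMod p))).ρ =
      permRep (G ⧸ (⊤ : Subgroup G)) (ZMod p) from rfl,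
    hφ.equiv (tensorPermEquiv ρ (G ⧸ (⊤ : Subgroup G))), hφ.equiv (conjRepUnique ρ _)]

/-- Vanishing on all cyclic permutation modules after tensoring. -/
lemma tensorFun_zpowers (hφ : IsAdditiveRep φ) (hcyc : VanishesOnCyclic p φ) (c : G) :
    tensorFun ρ φ (Rep.of (permRep (G ⧸ Subgroup.zpowers c) (ZMod p))) = 0 := by
  classical
  obtain ⟨s, m, hpm, hord⟩ := Nat.exists_eq_pow_mul_and_not_dvd (orderOf_pos c).ne' p
    (Fact.out : p.Prime).ne_one
  have hq : p ^ s ≠ 0 := pow_ne_zero _ (Fact.out : p.Prime).ne_zero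
  letI : Fintype (G ⧸ Subgroup.zpowers (c ^ p ^ s)) := Fintype.ofFinite _
  letI : Fintype (G ⧸ Subgroup.zpowers c) := Fintype.ofFinite _
  have hcard : Fintype.card (G ⧸ Subgroup.zpowers (c ^ p ^ s)) =
      p ^ s * Fintype.card (G ⧸ Subgroup.zpowers c) := by
    rw [← Nat.card_eq_fintype_card, ← Nat.card_eq_fintype_card]
    exact card_quot c (p ^ s) m hq hord
  have h1 := (fiberData c (p ^ s)).perm_eq_nsmul (k := ZMod p) p s rfl hcard
    (tensorFun_isAdditiveRep ρ hφ)
  have h2 : tensorFun ρ φ (Rep.of (permRep (G ⧸ Subgroup.zpowers (c ^ p ^ s)) (ZMod p))) = 0 := by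
    rw [tensorFun_perm ρ hφ]
    apply hcyc (Subgroup.zpowers (c ^ p ^ s)) inferInstance
    rw [Nat.card_zpowers, orderOf_pow_eq c (p ^ s) m hq hord]
    exact hpm
  rw [h2] at h1
  have h3 := h1.symm
  rw [nsmul_eq_mul] at h3
  rcases mul_eq_zero.1 h3 with h4 | h4
  · exact absurd (by exact_mod_cast h4) hq
  · exact h4

/-- **Induction principle for additive invariants of `𝔽_p[G]`-modules.** -/
theorem eq_zero_of_vanishesOnCyclic (hφ : IsAdditiveRep φ) (hcyc : VanishesOnCyclic p φ) :
    φ (Rep.of ρ) = 0 := by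
  classical
  letI : Fintype G := Fintype.ofFinite G
  obtain ⟨n, zm, zp, hn, hfix⟩ := ArtinFix28.exists_nat_coeff (G := G)
  let H : Option G → Subgroup G := fun o => o.elim ⊤ Subgroup.zpowers
  letI : ∀ o, Fintype (G ⧸ H o) := fun o => Fintype.ofFinite _
  have key : n • tensorFun ρ φ (Rep.of (permRep (G ⧸ (⊤ : Subgroup G)) (ZMod p))) +
      ∑ g₀ : G, zm g₀ • tensorFun ρ φ (Rep.of (permRep (G ⧸ Subgroup.zpowers g₀) (ZMod p))) =
      0 • tensorFun ρ φ (Rep.of (permRep (G ⧸ (⊤ : Subgroup G)) (ZMod p))) +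
      ∑ g₀ : G, zp g₀ • tensorFun ρ φ (Rep.of (permRep (G ⧸ Subgroup.zpowers g₀) (ZMod p))) := by
    have := perm_sum_eq p (fun o : Option G => G ⧸ H o) (fun o : Option G => o.elim n zm)
      (fun o : Option G => o.elim 0 zp) (tensorFun_isAdditiveRep ρ hφ) (by
        intro g
        rw [Fintype.sum_option, Fintype.sum_option]
        change n * Nat.card (MulAction.fixedBy (G ⧸ (⊤ : Subgroup G)) g) +
          ∑ g₀ : G, zm g₀ * Nat.card (MulAction.fixedBy (G ⧸ Subgroup.zpowers g₀) g) =
          0 * Nat.card (MulAction.fixedBy (G ⧸ (⊤ : Subgroup G)) g) +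
          ∑ g₀ : G, zp g₀ * Nat.card (MulAction.fixedBy (G ⧸ Subgroup.zpowers g₀) g)
        have h1 : Nat.card (MulAction.fixedBy (G ⧸ (⊤ : Subgroup G)) g) = 1 := by
          haveI : Subsingleton (G ⧸ (⊤ : Subgroup G)) := QuotientGroup.subsingleton_quotient_top
          haveI : Nonempty (MulAction.fixedBy (G ⧸ (⊤ : Subgroup G)) g) :=
            ⟨⟨((1 : G) : G ⧸ _), Subsingleton.elim _ _⟩⟩
          exact Nat.card_unique
        rw [h1, mul_one, zero_mul, zero_add]
        exact hfix g)
    rw [Fintype.sum_option, Fintype.sum_option] at this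
    exact this
  rw [zero_smul, zero_add] at key
  rw [tensorFun_top ρ hφ] at key
  simp only [tensorFun_zpowers ρ hφ hcyc, smul_zero, Finset.sum_const_zero, add_zero] at key
  rw [nsmul_eq_mul] at key
  rcases mul_eq_zero.1 key with h | h
  · exact absurd (by exact_mod_cast h) hn.ne'
  · exact h

end Fermat.Agent.TW.EUL.Main28
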