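/-
Brick EC1 contract (helper28, program TW, WP4): `Spec26.InductionPrinciple (ZMod p) G` for a finite
group `G`: an additive function on finite-dimensional `𝔽_p[G]`-modules which vanishes on the
projective ones vanishes identically.  Deduced from `Main28.eq_zero_of_vanishesOnCyclic`: the
coinduction of a representation of a subgroup `C` with `|C|` invertible in `k` has the lifting
property (explicit averaging formula).
-/
import Mathlib
import Fermat.Agent.TW.EUL.Main28
import Fermat.Agent.TW.GlobalEC.Spec26

set_option linter.unusedSectionVars false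
set_option linter.style.haveILetI false

namespace Fermat.Agent.TW.EUL.ProjAdapter28

open Function Representation Fermat.Agent.TW.GlobalEC

section coindProj

variable {k G : Type} [Field k] [Group G] [Fintype G] (C : Subgroup G)
  {N : Type} [AddCommGroup N] [Module k N] (σ : Representation k C N)

open scoped Classical in
/-- Extension by zero `N → coind_C^G N`: `n ↦ (g ↦ g • n if g ∈ C, else 0)`. -/
noncomputable def extZero : N →ₗ[k] coindV C.subtype σ where
  toFun n := ⟨fun g => if h : g ∈ C then σ ⟨g, h⟩ n else 0, by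
    intro c g
    by_cases hg : g ∈ C
    · have hcg : C.subtype c * g ∈ C := C.mul_mem c.2 hg
      simp only [dif_pos hg, dif_pos hcg]
      rw [← Module.End.mul_apply, ← map_mul]
      rfl
    · have hcg : C.subtype c * g ∉ C := by
        intro h
        apply hg
        have := C.mul_mem (C.inv_mem c.2) h
        simpa using this
      simp only [dif_neg hg, dif_neg hcg, map_zero]⟩
  map_add' n n' := by
    apply Subtype.ext
    funext g
    by_cases hg : g ∈ C <;> simp [hg]
  map_smul' r n := by
    apply Subtype.ext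
    funext g
    by_cases hg : g ∈ C <;> simp [hg]

open scoped Classical in
lemma extZero_val (n : N) (g : G) :
    (extZero C σ n : G → N) g = if h : g ∈ C then σ ⟨g, h⟩ n else 0 := rfl

lemma coind_val (g g' : G) (F : coindV C.subtype σ) :
    ((coind C.subtype σ g F : coindV C.subtype σ) : G → N) g' = F.1 (g' * g) := rfl

open scoped Classical in
/-- The key identity: `∑ x, x⁻¹ • ι (F x) = |C| • F`. -/
lemma sum_extZero (F : coindV C.subtype σ) :
    ∑ x : G, coind C.subtype σ x⁻¹ (extZero C σ (F.1 x)) = (Nat.card C : k) • F := by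
  apply Subtype.ext
  funext g
  have h1 : ((∑ x : G, coind C.subtype σ x⁻¹ (extZero C σ (F.1 x)) : coindV C.subtype σ) : G → N) g
      = ∑ x : G, if g * x⁻¹ ∈ C then F.1 g else 0 := by
    rw [AddSubmonoidClass.coe_finsetSum, Finset.sum_apply]
    apply Finset.sum_congr rfl
    intro x _
    rw [coind_val, extZero_val]
    by_cases hx : g * x⁻¹ ∈ C
    · rw [dif_pos hx, if_pos hx]
      have := F.2 ⟨g * x⁻¹, hx⟩ x
      simp only [Subgroup.subtype_apply, inv_mul_cancel_right] at this
      exact this.symm
    · rw [dif_neg hx, if_neg hx]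
  rw [h1]
  have h2 : ∑ x : G, (if g * x⁻¹ ∈ C then F.1 g else 0) =
      ∑ y : G, if y ∈ C then F.1 g else 0 := by
    refine Fintype.sum_equiv ((Equiv.inv G).trans (Equiv.mulLeft g)) _ _ ?_
    intro x
    simp
  rw [h2, ← Finset.sum_filter, Finset.sum_const]
  have h3 : (Finset.univ.filter fun y : G => y ∈ C).card = Nat.card C := by
    rw [Nat.card_eq_fintype_card, Fintype.card_subtype]
  rw [h3]
  simp [Nat.cast_smul_eq_nsmul]

/-- **Coinduction from a subgroup of invertible order has the lifting property.** -/
theorem isProjRep_coind (hC : (Nat.card C : k) ≠ 0) :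
    Spec26.IsProjRep (Rep.of (coind C.subtype σ)) := by
  classical
  intro A B ψ hψ hsurj φ hφ
  obtain ⟨s, hs⟩ := LinearMap.exists_rightInverse_of_surjective ψ (LinearMap.range_eq_top.2 hsurj)
  let lam : N →ₗ[k] A := s ∘ₗ φ ∘ₗ (extZero C σ)
  have hlam : ∀ n, ψ (lam n) = φ (extZero C σ n) := by
    intro n
    exact LinearMap.congr_fun hs (φ (extZero C σ n))
  let ev : G → (coindV C.subtype σ →ₗ[k] N) := fun x =>
    (LinearMap.proj x) ∘ₗ (coindV C.subtype σ).subtype
  let φ' : coindV C.subtype σ →ₗ[k] A :=
    (Nat.card C : k)⁻¹ • ∑ x : G, (A.ρ x⁻¹) ∘ₗ lam ∘ₗ ev x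
  have hφ'apply : ∀ F : coindV C.subtype σ,
      φ' F = (Nat.card C : k)⁻¹ • ∑ x : G, A.ρ x⁻¹ (lam (F.1 x)) := by
    intro F
    simp only [φ', LinearMap.smul_apply, LinearMap.sum_apply, LinearMap.comp_apply, ev]
    rfl
  refine ⟨φ', ?_, ?_⟩
  · intro g F
    have hg : (Rep.of (coind C.subtype σ)).ρ g F = coind C.subtype σ g F := rfl
    rw [hg, hφ'apply, hφ'apply, map_smul, map_sum]
    congr 1
    refine Fintype.sum_equiv (Equiv.mulRight g) _ _ ?_
    intro x
    simp only [Equiv.coe_mulRight, coind_val]
    rw [← Module.End.mul_apply, ← map_mul, mul_inv_rev, mul_inv_cancel_left]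
  · intro F
    rw [hφ'apply, map_smul, map_sum]
    have h1 : ∀ x : G, ψ (A.ρ x⁻¹ (lam (F.1 x))) =
        φ (coind C.subtype σ x⁻¹ (extZero C σ (F.1 x))) := by
      intro x
      rw [hψ, hlam]
      exact (hφ x⁻¹ (extZero C σ (F.1 x))).symm
    simp_rw [h1]
    rw [← map_sum, sum_extZero, map_smul, smul_smul, inv_mul_cancel₀ hC, one_smul]

end coindProj

section main

open RepBridge28 Main28

variable (p : ℕ) [Fact p.Prime] (G : Type) [Group G] [Finite G]

/-- **EC1**: the induction principle in the contract form of `Spec26`. -/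
theorem inductionPrinciple : Spec26.InductionPrinciple (ZMod p) G := by
  classical
  letI : Fintype G := Fintype.ofFinite G
  intro f hadd hproj N hN
  have hf : IsAdditiveRep f := by
    intro A B C _ _ _ φ ψ hφ hψ hex
    exact hadd A B C φ.toLinearMap ψ.toLinearMap
      ⟨fun g a => IntertwiningMap.isIntertwining A.ρ B.ρ φ g a,
        fun g b => IntertwiningMap.isIntertwining B.ρ C.ρ ψ g b, hφ, hψ, hex⟩ inferInstance
  have hcyc : VanishesOnCyclic p f := by
    intro C _ hp N' _ _ _ σ
    apply hproj _ inferInstance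
    apply isProjRep_coind C σ
    intro h0
    exact hp ((ZMod.natCast_eq_zero_iff _ _).1 h0)
  exact eq_zero_of_vanishesOnCyclic N.ρ hf hcyc

end main

end Fermat.Agent.TW.EUL.ProjAdapter28
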